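import Fermat.Agent.TwoAdic.Module.Local.LevelPsi
import Fermat.Agent.TwoAdic.Module.Big

/-!
# The hypotheses of the big datum at the levels of `LevelPsi`

For `ψ` with components at the `q i` and `q₀` only, at the level cut out by its projection away
from `q₀`, everything `BigHyp` asks follows except the bijection on monomials.
-/

set_option autoImplicit false

noncomputable section

open IsLocalRing

namespace Fermat.Agent.TwoAdic.Module.Local

variable {ι : Type} {n L q₀ : ℕ} {q : ι → ℕ}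

/-- The diamond group has exponent `2 ^ n`. -/
theorem pow_two_pow_eq_one (hn : 1 ≤ n) (x : PsiGroup ι n) : x ^ 2 ^ n = 1 := by
  refine Multiplicative.toAdd.injective ?_
  rw [toAdd_pow, toAdd_one]
  refine Prod.ext (funext fun i => ?_) ?_
  · show (2 ^ n) • x.toAdd.1 i = 0
    rw [nsmul_eq_mul, ZMod.natCast_self, zero_mul]
  · show (2 ^ n) • x.toAdd.2 = 0
    have h2 : ((2 ^ n : ℕ) : ZMod 2) = 0 :=
      (ZMod.natCast_eq_zero_iff _ _).2 (dvd_pow_self 2 (Nat.one_le_iff_ne_zero.1 hn))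
    rw [nsmul_eq_mul, h2, zero_mul]

/-- What is killed by the projection away from `q₀` is `1` or the generator at `q₀`. -/
theorem eq_one_or_gElt {x : PsiGroup ι n} (hx : toQ x = 1) : x = 1 ∨ x = gElt := by
  have h1 : x.toAdd.1 = 0 := Multiplicative.ofAdd.injective (hx.trans ofAdd_zero.symm)
  rcases (show ∀ a : ZMod 2, a = 0 ∨ a = 1 by decide) x.toAdd.2 with h2 | h2
  · exact Or.inl (Multiplicative.toAdd.injective (Prod.ext h1 h2))
  · exact Or.inr (Multiplicative.toAdd.injective (Prod.ext h1 h2))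

variable [Fintype ι] {ψ : (ZMod L)ˣ →* PsiGroup ι n}
variable {O : Type} [CommRing O] [IsDomain O] [IsDiscreteValuationRing O]
  [NeZero L] [NeZero (L / 2)] {S : Finset ℕ} {abar : ℕ → ResidueField O}
  (H : HeckeData L ψ S abar) {St : Deform.Setting O}

/-- **The hypotheses of the big datum at a level of `exists_levelPsi_two`.** -/
theorem bigHyp_levelOfChar (hn : 1 ≤ n) (hL : Squarefree L) (h2L : 2 ∣ L)
    (hS : ∀ v : ℕ, v.Prime → v ∣ L → v ∈ S) (h2S : 2 ∈ S) (hd : 0 < H.d)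
    (hcomp : ∀ v : ℕ, v.Prime → v ∣ L → ∀ u : (ZMod L)ˣ,
      ((u : ZMod L).cast : ZMod (L / v)) = 1 →
      (∀ i, q i ≠ v → (ψ u).toAdd.1 i = 0) ∧ (q₀ ≠ v → (ψ u).toAdd.2 = 0))
    (htriv : ∀ v : ℕ, v.Prime → v ∣ L → (∀ i, q i ≠ v) → q₀ ≠ v → ∀ u : (ZMod L)ˣ,
      ((u : ZMod L).cast : ZMod (L / v)) = 1 → ψ u = 1)
    {w : (ZMod L)ˣ} (hw : ∀ t : (ZMod L)ˣ, ((t : ZMod L).cast : ZMod (L / 2)) = 2 →
      ψ t = gElt * ψ w ^ 2)
    (hq₀T : q₀ ∉ St.T) (hq₀2 : q₀ ≠ 2)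
    (hQp : ∀ v ∈ Finset.univ.image q, v.Prime) (hQ2 : ∀ v ∈ Finset.univ.image q, v ≠ 2)
    (hQT : ∀ v ∈ Finset.univ.image q, v ∉ St.T)
    (hψQ : ∀ v : ℕ, v.Prime → v ∣ L → v ∉ Finset.univ.image q → ∀ u : (ZMod L)ˣ,
      ((u : ZMod L).cast : ZMod (L / v)) = 1 → toQ.comp ψ u = 1)
    (hwQ : ∀ t : (ZMod L)ˣ, ((t : ZMod L).cast : ZMod (L / 2)) = 2 →
      toQ.comp ψ t = toQ.comp ψ w ^ 2)
    (Da : Deform.Aux St
      (levelOfChar St hL h2L (toQ.comp ψ) (Finset.univ.image q) hQp hQ2 hQT hψQ w hwQ))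
    (hbij : Function.Bijective fun p : (Da.ι → Fin (2 ^ n)) × Fin 2 =>
      (∏ l, ψ (cycHom L (Da.τ l)) ^ (p.1 l : ℕ)) * gElt ^ (p.2 : ℕ)) :
    BigHyp H Da n gElt where
  squarefree := hL
  two_dvd := h2L
  mem_S := hS
  two_mem := h2S
  isPGroup := isPGroup_psiGroup
  d_pos := hd
  g_sq := gElt_sq
  pow_eq_one := pow_two_pow_eq_one hn
  bijective := hbij
  comp_two u hu := htriv 2 Nat.prime_two h2L (fun i h =>
    hQ2 (q i) (Finset.mem_image_of_mem q (Finset.mem_univ i)) h) hq₀2 u hu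
  comp_T v hv hvL u hu := htriv v (St.prime_of_mem v hv) hvL (fun i h =>
    hQT (q i) (Finset.mem_image_of_mem q (Finset.mem_univ i)) (h ▸ hv))
    (fun h => hq₀T (h ▸ hv)) u hu
  comp_other v hv hvL hvQ u hu := by
    rw [levelOfChar_Q] at hvQ
    refine eq_one_or_gElt ?_
    rw [toQ_apply, ← ofAdd_zero]
    exact congrArg _ (funext fun i => (hcomp v hv hvL u hu).1 i fun h =>
      hvQ (h ▸ Finset.mem_image_of_mem q (Finset.mem_univ i)))
  mem_H σ hσ := eq_one_or_gElt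
    ((mem_levelOfChar_H St hL h2L (toQ.comp ψ) (Finset.univ.image q) hQp hQ2 hQT hψQ w hwQ σ).1 hσ)
  φ2 := by
    rw [cycHom_levelOfChar_root2]
    exact hw _ (cast_cycHom_φ2 St hL h2L)

end Fermat.Agent.TwoAdic.Module.Local
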