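import Fermat.Agent.Newforms.LevelRaiseEigen
import Fermat.Agent.TwoAdic.Module.Interface
import Fermat.Agent.RT.Interface

/-!
# Elementary facts for the localised module at `p = 2`

`-1` is killed by a character with even components, `3` is a unit, every complex point of the
coefficients is injective, and congruent forms pass to multiples of the level.
-/

set_option autoImplicit false

noncomputable section

namespace Fermat.Agent.TwoAdic.Module.Local

open IsLocalRing ModularFormClass

/-- For squarefree `L` two integers are congruent modulo `L` once they are modulo its primes. -/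
theorem dvd_of_forall_prime_dvd {L : ℕ} (hL : Squarefree L) {n : ℤ}
    (h : ∀ w : ℕ, w.Prime → w ∣ L → (w : ℤ) ∣ n) : (L : ℤ) ∣ n := by
  rw [Int.natCast_dvd, ← Nat.prod_primeFactors_of_squarefree hL]
  refine Finset.prod_primes_dvd _ (fun w hw => (Nat.prime_of_mem_primeFactors hw).prime)
    fun w hw => Int.natCast_dvd.1 ?_
  exact h w (Nat.prime_of_mem_primeFactors hw) (Nat.dvd_of_mem_primeFactors hw)

/-- A character with even components kills `-1`. -/
theorem map_neg_one {L : ℕ} {Δ : Type} [CommGroup Δ] {ψ : (ZMod L)ˣ →* Δ} (hL : Squarefree L)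
    (hev : HasEvenComponents ψ) : ψ (-1) = 1 := by
  classical
  have hE : ∀ v : {v // v ∈ L.primeFactors}, ∃ E : ℤ,
      (v.1 : ℤ) ∣ E + 1 ∧ ((L / v.1 : ℕ) : ℤ) ∣ E - 1 := fun v => by
    have hv := Nat.dvd_of_mem_primeFactors v.2
    have hco : Nat.Coprime v.1 (L / v.1) :=
      Nat.coprime_of_squarefree_mul ((Nat.mul_div_cancel' hv).symm ▸ hL)
    obtain ⟨a, b, hab⟩ := Nat.isCoprime_iff_coprime.2 hco
    exact ⟨a * (v.1 : ℕ) - b * (L / v.1 : ℕ), ⟨2 * a, by linear_combination -hab⟩,
      ⟨-(2 * b), by linear_combination hab⟩⟩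
  choose E hEv hEL using hE
  have hloc : ∀ (v : {v // v ∈ L.primeFactors}) {w : ℕ}, w.Prime → w ∣ L → w ≠ v.1 →
      (w : ℤ) ∣ E v - 1 := fun v w hw hwL hwv => by
    refine (Int.natCast_dvd_natCast.2 ?_).trans (hEL v)
    refine ((Nat.coprime_primes hw (Nat.prime_of_mem_primeFactors v.2)).2 hwv).dvd_of_dvd_mul_left ?_
    rwa [Nat.mul_div_cancel' (Nat.dvd_of_mem_primeFactors v.2)]
  have hsq : ∀ v, (E v : ZMod L) * E v = 1 := fun v => by
    rw [← Int.cast_mul, ← Int.cast_one, ZMod.intCast_eq_intCast_iff_dvd_sub]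
    refine dvd_of_forall_prime_dvd hL fun w hw hwL => ?_
    rw [show 1 - E v * E v = -((E v + 1) * (E v - 1)) by ring, dvd_neg]
    rcases eq_or_ne w v.1 with rfl | hne
    exacts [(hEv v).mul_right _, (hloc v hw hwL hne).mul_left _]
  set u : {v // v ∈ L.primeFactors} → (ZMod L)ˣ := fun v => Units.mkOfMulEqOne _ _ (hsq v) with hu
  have hprod : ∏ v, u v = -1 := by
    refine Units.ext ?_
    rw [Units.coe_prod, Units.val_neg, Units.val_one]
    show ∏ v, (E v : ZMod L) = -1
    rw [← Int.cast_prod, ← Int.cast_one, ← Int.cast_neg, ZMod.intCast_eq_intCast_iff_dvd_sub]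
    refine dvd_of_forall_prime_dvd hL fun w hw hwL => ?_
    rw [← ZMod.intCast_eq_intCast_iff_dvd_sub, Int.cast_prod]
    set v₀ : {v // v ∈ L.primeFactors} :=
      ⟨w, Nat.mem_primeFactors.2 ⟨hw, hwL, hL.ne_zero⟩⟩ with hv₀
    rw [Finset.prod_eq_single v₀ (fun v _ hv => ?_) fun h => absurd (Finset.mem_univ _) h]
    · rw [ZMod.intCast_eq_intCast_iff_dvd_sub, ← dvd_neg]
      simpa [hv₀, neg_sub, sub_neg_eq_add] using hEv v₀
    · rw [← Int.cast_one, ZMod.intCast_eq_intCast_iff_dvd_sub, ← dvd_neg, neg_sub]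
      exact hloc v hw hwL fun h => hv (Subtype.ext h.symm)
  rw [← hprod, map_prod]
  refine Finset.prod_eq_one fun v _ => hev v.1 (Nat.prime_of_mem_primeFactors v.2)
    (Nat.dvd_of_mem_primeFactors v.2) _ ?_ (Units.ext ?_)
  · show ((E v : ZMod L).cast : ZMod (L / v.1)) = 1
    rw [ZMod.cast_intCast (Nat.div_dvd_of_dvd (Nat.dvd_of_mem_primeFactors v.2)), ← Int.cast_one,
      ZMod.intCast_eq_intCast_iff_dvd_sub, ← dvd_neg, neg_sub]
    exact hEL v
  · rw [Units.val_pow_eq_pow_val, pow_two, Units.val_one]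
    exact hsq v

variable {O : Type} [CommRing O]

theorem isUnit_three_of_charTwo [IsLocalRing O] [CharP (ResidueField O) 2] : IsUnit (3 : O) := by
  rw [← residue_ne_zero_iff_isUnit, map_ofNat]
  exact fun h => by
    have : ((3 : ℕ) : ResidueField O) = 0 := by exact_mod_cast h
    rw [CharP.cast_eq_zero_iff _ 2] at this
    omega

theorem eq_zero_of_add_self [IsDomain O] [CharZero O] (x : O) (h : x + x = 0) : x = 0 := by
  rw [← two_mul, mul_eq_zero] at h
  exact h.resolve_left two_ne_zero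

/-- A ring homomorphism from a discrete valuation ring of residue characteristic two to `ℂ` is
injective. -/
theorem injective_toComplex [IsDomain O] [IsDiscreteValuationRing O] [CharP (ResidueField O) 2]
    (σ : O →+* ℂ) : Function.Injective σ := by
  have hp : (RingHom.ker σ).IsPrime := RingHom.ker_isPrime σ
  rw [RingHom.injective_iff_ker_eq_bot]
  by_contra hne
  obtain ⟨ϖ, hϖ⟩ := IsDiscreteValuationRing.exists_irreducible O
  have hker : RingHom.ker σ = maximalIdeal O :=
    eq_maximalIdeal (Ring.DimensionLEOne.maximalOfPrime hne hp)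
  have h2 : σ 2 = 0 := by
    rw [← RingHom.mem_ker, hker, ← residue_eq_zero_iff, map_ofNat]
    exact_mod_cast CharP.cast_eq_zero (ResidueField O) 2
  rw [map_ofNat] at h2
  exact two_ne_zero h2

/-- Congruent forms pass to multiples of the level. -/
theorem isCongruentLevel_of_dvd {k : Type} [Field k] {S : Finset ℕ} {abar : ℕ → k} {M N : ℕ}
    [NeZero N] (hMN : M ∣ N) (hS : ∀ v : ℕ, v.Prime → v ∣ N → v ∈ S)
    (h : RT.IsCongruentLevel S abar M) : RT.IsCongruentLevel S abar N := by
  obtain ⟨g, hg, φ, hφ⟩ := h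
  obtain ⟨f, hf, hfg⟩ := Newforms.exists_eigenform_of_dvd hMN hg
  refine ⟨f, hf, φ, fun ℓ hℓ hℓS a ha => hφ ℓ hℓ hℓS a ?_⟩
  rw [ha, hfg ℓ hℓ (Or.inr fun hd => hℓS (hS ℓ hℓ hd))]

end Fermat.Agent.TwoAdic.Module.Local
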