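import Mathlib.NumberTheory.LegendreSymbol.QuadraticReciprocity
import Fermat.Agent.RT.Assembly.LevelChar
import Fermat.Agent.TwoAdic.Deform.Make
import Fermat.Agent.TwoAdic.Module.Glue.Pointwise
import Fermat.Agent.TwoAdic.Module.Local.Basic

/-!
# The characters of the auxiliary levels at `p = 2`

At squarefree even `L` with primes `q i ≡ 1 mod 2 ^ (n + 1)` and `q₀ ≡ 5 mod 8` the character
`ψ : (ℤ/L)ˣ → (ℤ/2ⁿ)^ι × ℤ/2` has the component at `q i` onto the `i`-th factor, the one at `q₀`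
onto `ℤ/2`, and `ψ 2` is the nontrivial element of `ℤ/2` times a square. Its projection to
`(ℤ/2ⁿ)^ι` cuts out a level of the deformation problem.
-/

set_option autoImplicit false

noncomputable section

namespace Fermat.Agent.TwoAdic.Module.Local

open Fermat.Agent.RT.Assembly (exists_logHom exists_unit_crt)

/-- The group of diamonds of a level. -/
abbrev PsiGroup (ι : Type) (n : ℕ) : Type := Multiplicative ((ι → ZMod (2 ^ n)) × ZMod 2)

/-- The group of diamonds without the factor at `q₀`. -/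
abbrev QGroup (ι : Type) (n : ℕ) : Type := Multiplicative (ι → ZMod (2 ^ n))

variable {ι : Type} {n : ℕ}

/-- The projection forgetting the factor at `q₀`. -/
def toQ : PsiGroup ι n →* QGroup ι n :=
  AddMonoidHom.toMultiplicative (AddMonoidHom.fst (ι → ZMod (2 ^ n)) (ZMod 2))

theorem toQ_apply (δ : PsiGroup ι n) : toQ δ = Multiplicative.ofAdd δ.toAdd.1 := rfl

/-- The generator of the factor at `q₀`. -/
def gElt : PsiGroup ι n := Multiplicative.ofAdd (0, 1)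

/-- The generator of the `i`-th factor. -/
def genElt [DecidableEq ι] (i : ι) : PsiGroup ι n := Multiplicative.ofAdd (Pi.single i 1, 0)

theorem toQ_surjective : Function.Surjective (toQ (ι := ι) (n := n)) := fun δ =>
  ⟨Multiplicative.ofAdd (δ.toAdd, 0), rfl⟩

theorem toQ_gElt : toQ (gElt : PsiGroup ι n) = 1 := rfl

theorem gElt_sq : (gElt : PsiGroup ι n) ^ 2 = 1 := by
  refine Multiplicative.toAdd.injective ?_
  rw [toAdd_pow, toAdd_one, gElt, toAdd_ofAdd]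
  refine Prod.ext (show (2 : ℕ) • (0 : ι → ZMod (2 ^ n)) = 0 from smul_zero _) ?_
  show (2 : ℕ) • (1 : ZMod 2) = 0
  decide

variable [Fintype ι]

theorem card_psiGroup : Nat.card (PsiGroup ι n) = 2 ^ (n * Fintype.card ι + 1) := by
  rw [Nat.card_congr Multiplicative.toAdd, Nat.card_prod, Nat.card_fun, Nat.card_zmod,
    Nat.card_zmod, Nat.card_eq_fintype_card, ← pow_mul, ← pow_succ]

theorem isPGroup_psiGroup : IsPGroup 2 (PsiGroup ι n) := IsPGroup.of_card card_psiGroup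

theorem isPGroup_qGroup : IsPGroup 2 (QGroup ι n) :=
  isPGroup_psiGroup.of_surjective toQ toQ_surjective

/-- An even character of `(ℤ/q)ˣ` onto a cyclic group of even order: only squares are killed. -/
theorem exists_evenLog {q m : ℕ} [Fact q.Prime] [NeZero m] (hm : 2 * m ∣ q - 1) (hm2 : 2 ∣ m) :
    ∃ f : (ZMod q)ˣ →* Multiplicative (ZMod m), Function.Surjective f ∧
      (∀ x, x ^ 2 = 1 → f x = 1) ∧ ∀ x, f x = 1 → IsSquare x := by
  obtain ⟨a, ha⟩ := IsCyclic.exists_monoid_generator (α := (ZMod q)ˣ)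
  have hord : orderOf a = q - 1 := by
    rw [orderOf_eq_card_of_forall_mem_zpowers (fun x => mem_powers_iff_mem_zpowers.1 (ha x)),
      Nat.card_eq_fintype_card, ZMod.card_units]
  obtain ⟨f, hf⟩ := exists_logHom (m := m) ((dvd_mul_left m 2).trans hm) hord 1
  have hk : ∀ k : ℕ, f (a ^ k) = Multiplicative.ofAdd (k : ZMod m) := fun k => by
    rw [map_pow, hf, ← ofAdd_nsmul, nsmul_one]
  refine ⟨f, fun c => ⟨a ^ c.toAdd.val, by rw [hk, ZMod.natCast_zmod_val, ofAdd_toAdd]⟩,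
    fun x hx => ?_, fun x hx => ?_⟩ <;> obtain ⟨k, rfl⟩ := ha x <;> dsimp only at hx ⊢
  · rw [← pow_mul] at hx
    have h : 2 * m ∣ k * 2 := hm.trans (hord ▸ orderOf_dvd_of_pow_eq_one hx)
    rw [mul_comm k 2] at h
    rw [hk, (ZMod.natCast_eq_zero_iff _ _).2 (Nat.dvd_of_mul_dvd_mul_left two_pos h), ofAdd_zero]
  · rw [hk, ← ofAdd_zero, Multiplicative.ofAdd.injective.eq_iff, ZMod.natCast_eq_zero_iff] at hx
    obtain ⟨j, hj⟩ := hm2.trans hx
    exact ⟨a ^ j, by rw [← pow_add, hj, two_mul]⟩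

section Existence

variable [DecidableEq ι] {L q₀ : ℕ} {q : ι → ℕ}

/-- **The character of a level at `p = 2`.** -/
theorem exists_levelPsi_two (hn : 2 ≤ n) (hL : Squarefree L) (h2L : 2 ∣ L)
    (hq : ∀ i, (q i).Prime) (hqL : ∀ i, q i ∣ L) (hinj : Function.Injective q)
    (hmod : ∀ i, 2 ^ (n + 1) ∣ q i - 1) (hq₀ : q₀.Prime) (hq₀L : q₀ ∣ L) (h5 : q₀ % 8 = 5) :
    ∃ ψ : (ZMod L)ˣ →* PsiGroup ι n, Function.Surjective ψ ∧ HasEvenComponents ψ ∧
      ψ (-1) = 1 ∧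
      (∀ v : ℕ, v.Prime → v ∣ L → ∀ u : (ZMod L)ˣ, ((u : ZMod L).cast : ZMod (L / v)) = 1 →
        (∀ i, q i ≠ v → (ψ u).toAdd.1 i = 0) ∧ (q₀ ≠ v → (ψ u).toAdd.2 = 0)) ∧
      (∀ v : ℕ, v.Prime → v ∣ L → (∀ i, q i ≠ v) → q₀ ≠ v → ∀ u : (ZMod L)ˣ,
        ((u : ZMod L).cast : ZMod (L / v)) = 1 → ψ u = 1) ∧
      (∀ i, ∃ u : (ZMod L)ˣ, ((u : ZMod L).cast : ZMod (L / q i)) = 1 ∧ ψ u = genElt i) ∧
      (∃ u : (ZMod L)ˣ, ((u : ZMod L).cast : ZMod (L / q₀)) = 1 ∧ ψ u = gElt) ∧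
      ∃ w : (ZMod L)ˣ, ∀ t : (ZMod L)ˣ, ((t : ZMod L).cast : ZMod (L / 2)) = 2 →
        ψ t = gElt * ψ w ^ 2 := by
  have hpow : (2 : ℕ) ∣ 2 ^ n := dvd_pow_self 2 (by omega)
  have hf' : ∀ i, ∃ f : (ZMod (q i))ˣ →* Multiplicative (ZMod (2 ^ n)), Function.Surjective f ∧
      (∀ x, x ^ 2 = 1 → f x = 1) ∧ ∀ x, f x = 1 → IsSquare x := fun i => by
    have : Fact (q i).Prime := ⟨hq i⟩
    exact exists_evenLog (by rw [← pow_succ']; exact hmod i) hpow
  choose f hfs hfe hfsq using hf'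
  have : Fact q₀.Prime := ⟨hq₀⟩
  obtain ⟨f₀, hf₀s, hf₀e, hf₀sq⟩ := exists_evenLog (q := q₀) (m := 2) (by omega) dvd_rfl
  let ψ : (ZMod L)ˣ →* PsiGroup ι n :=
    { toFun := fun u => Multiplicative.ofAdd
        (fun i => (f i (ZMod.unitsMap (hqL i) u)).toAdd, (f₀ (ZMod.unitsMap hq₀L u)).toAdd)
      map_one' := by
        refine (congrArg Multiplicative.ofAdd (Prod.ext (funext fun i => ?_) ?_)).trans ofAdd_zero
        · show (f i _).toAdd = 0
          rw [map_one, map_one, toAdd_one]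
        · show (f₀ _).toAdd = 0
          rw [map_one, map_one, toAdd_one]
      map_mul' := fun u u' => by
        rw [← ofAdd_add]
        refine congrArg Multiplicative.ofAdd (Prod.ext (funext fun i => ?_) ?_)
        · show (f i _).toAdd = (f i _).toAdd + (f i _).toAdd
          rw [map_mul, map_mul, toAdd_mul]
        · show (f₀ _).toAdd = (f₀ _).toAdd + (f₀ _).toAdd
          rw [map_mul, map_mul, toAdd_mul] }
  have hψ1 : ∀ u i, (ψ u).toAdd.1 i = (f i (ZMod.unitsMap (hqL i) u)).toAdd := fun _ _ => rfl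
  have hψ2 : ∀ u, (ψ u).toAdd.2 = (f₀ (ZMod.unitsMap hq₀L u)).toAdd := fun _ => rfl
  have hq8 : ∀ i, q i % 8 = 1 := fun i => by
    obtain ⟨k, hk⟩ := (pow_dvd_pow 2 (show 3 ≤ n + 1 by omega)).trans (hmod i)
    have := (hq i).one_le
    omega
  have hne : ∀ i, q i ≠ q₀ := fun i h => by
    have := hq8 i
    omega
  -- components
  have hone : ∀ {x v : ℕ} (_ : x.Prime) (hx : x ∣ L) (_ : v.Prime) (hv : v ∣ L), x ≠ v →
      ∀ u : (ZMod L)ˣ, ((u : ZMod L).cast : ZMod (L / v)) = 1 → ZMod.unitsMap hx u = 1 := by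
    intro x v hxp hx hvp hv hxv u hu
    have hd : x ∣ L / v := Nat.dvd_div_of_mul_dvd
      (((Nat.coprime_primes hvp hxp).mpr (Ne.symm hxv)).mul_dvd_of_dvd_of_dvd hv hx)
    have h1 : ZMod.unitsMap (Nat.div_dvd_of_dvd hv) u = 1 := Units.ext (by
      rw [ZMod.unitsMap_val]; exact hu)
    rw [← ZMod.unitsMap_comp hd (Nat.div_dvd_of_dvd hv), MonoidHom.comp_apply, h1, map_one]
  have hcomp : ∀ v : ℕ, v.Prime → v ∣ L → ∀ u : (ZMod L)ˣ,
      ((u : ZMod L).cast : ZMod (L / v)) = 1 →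
      (∀ i, q i ≠ v → (ψ u).toAdd.1 i = 0) ∧ (q₀ ≠ v → (ψ u).toAdd.2 = 0) :=
    fun v hv hvL u hu => ⟨fun i hi => by
      rw [hψ1, hone (hq i) (hqL i) hv hvL hi u hu, map_one, toAdd_one], fun h => by
      rw [hψ2, hone hq₀ hq₀L hv hvL h u hu, map_one, toAdd_one]⟩
  have hsq : ∀ u : (ZMod L)ˣ, u ^ 2 = 1 → ψ u = 1 := fun u hu => by
    refine Multiplicative.toAdd.injective (Prod.ext (funext fun i => ?_) ?_)
    · rw [hψ1, hfe i _ (by rw [← map_pow, hu, map_one]), toAdd_one]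
      rfl
    · rw [hψ2, hf₀e _ (by rw [← map_pow, hu, map_one]), toAdd_one]
      rfl
  have hcop : ∀ {x : ℕ}, x.Prime → x ∣ L → x.Coprime (L / x) := fun {x} hx hxL =>
    hx.coprime_iff_not_dvd.mpr fun hd => hx.not_isUnit
      (hL _ ((Nat.dvd_div_iff_mul_dvd hxL).1 hd))
  have hgen : ∀ i, ∃ u : (ZMod L)ˣ,
      ((u : ZMod L).cast : ZMod (L / q i)) = 1 ∧ ψ u = genElt i := by
    intro i
    obtain ⟨a, ha⟩ := hfs i (Multiplicative.ofAdd 1)
    obtain ⟨u, hu, hua⟩ := exists_unit_crt (hqL i) (hcop (hq i) (hqL i)) a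
    refine ⟨u, hu, Multiplicative.toAdd.injective (Prod.ext (funext fun j => ?_) ?_)⟩
    · show (ψ u).toAdd.1 j = (Pi.single i 1 : ι → ZMod (2 ^ n)) j
      rcases eq_or_ne j i with rfl | hji
      · rw [Pi.single_eq_same, hψ1, hua, ha, toAdd_ofAdd]
      · rw [Pi.single_eq_of_ne hji, (hcomp _ (hq i) (hqL i) u hu).1 j fun h => hji (hinj h)]
    · exact (hcomp _ (hq i) (hqL i) u hu).2 (hne i).symm
  have hgen₀ : ∃ u : (ZMod L)ˣ, ((u : ZMod L).cast : ZMod (L / q₀)) = 1 ∧ ψ u = gElt := by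
    obtain ⟨a, ha⟩ := hf₀s (Multiplicative.ofAdd 1)
    obtain ⟨u, hu, hua⟩ := exists_unit_crt hq₀L (hcop hq₀ hq₀L) a
    refine ⟨u, hu, Multiplicative.toAdd.injective (Prod.ext (funext fun j => ?_) ?_)⟩
    · exact (hcomp _ hq₀ hq₀L u hu).1 j (hne j)
    · rw [hψ2, hua, ha]
      rfl
  have hsurj : Function.Surjective ψ := by
    intro δ
    obtain ⟨u₀, -, hu₀⟩ := hgen₀
    choose u hu using fun i => (hgen i).imp fun _ h => h.2
    refine ⟨(∏ i, u i ^ (δ.toAdd.1 i).val) * u₀ ^ (δ.toAdd.2).val, ?_⟩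
    simp only [map_mul, map_prod, map_pow, hu, hu₀]
    apply Multiplicative.toAdd.injective
    rw [toAdd_mul, toAdd_prod]
    simp only [toAdd_pow, genElt, gElt, toAdd_ofAdd]
    refine Prod.ext (funext fun j => ?_) ?_ <;>
      simp only [Prod.fst_add, Prod.snd_add, Prod.fst_sum, Prod.snd_sum, Prod.smul_fst,
        Prod.smul_snd, Pi.add_apply, Finset.sum_apply, Pi.smul_apply, Pi.single_apply, smul_ite,
        smul_zero, nsmul_one, Pi.zero_apply, Finset.sum_const_zero, add_zero, zero_add,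
        Finset.sum_ite_eq, Finset.mem_univ, if_true, ZMod.natCast_zmod_val]
  refine ⟨ψ, hsurj, fun v _ _ u _ hu => hsq u hu, hsq _ neg_one_sq, hcomp,
    fun v hv hvL h h₀ u hu => ?_, hgen, hgen₀, ?_⟩
  · obtain ⟨h1, h2⟩ := hcomp v hv hvL u hu
    exact Multiplicative.toAdd.injective (Prod.ext (funext fun i => h1 i (h i)) (h2 h₀))
  -- the image of `2`
  have htwo : ∀ {x : ℕ} (_ : x.Prime) (hx : x ∣ L) (_ : x ≠ 2) (t : (ZMod L)ˣ),
      ((t : ZMod L).cast : ZMod (L / 2)) = 2 → (ZMod.unitsMap hx t : ZMod x) = 2 := by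
    intro x hxp hx hx2 t ht
    have hd : x ∣ L / 2 := Nat.dvd_div_of_mul_dvd
      (((Nat.coprime_primes Nat.prime_two hxp).mpr hx2.symm).mul_dvd_of_dvd_of_dvd h2L hx)
    have h := congrArg (ZMod.castHom hd (ZMod x)) ht
    rw [← ZMod.castHom_apply (h := Nat.div_dvd_of_dvd h2L), ← RingHom.comp_apply,
      Subsingleton.elim ((ZMod.castHom hd (ZMod x)).comp _) (ZMod.castHom hx (ZMod x)),
      map_ofNat] at h
    rw [ZMod.unitsMap_val]
    exact h
  have hr : ∀ i, ∃ r : (ZMod (q i))ˣ, (r : ZMod (q i)) ^ 2 = 2 := fun i => by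
    have : Fact (q i).Prime := ⟨hq i⟩
    have h2 : q i ≠ 2 := fun h => by have := hq8 i; omega
    obtain ⟨r, hr⟩ := (ZMod.exists_sq_eq_two_iff h2).2 (Or.inl (hq8 i))
    refine ⟨Units.mk0 r fun h => ?_, by rw [Units.val_mk0, hr, sq]⟩
    rw [h, mul_zero] at hr
    exact Ring.two_ne_zero (by rwa [ZMod.ringChar_zmod_n]) hr
  choose r hr using hr
  obtain ⟨w, hw⟩ := hsurj (Multiplicative.ofAdd ((fun i => (f i (r i)).toAdd), 0))
  refine ⟨w, fun t ht => Multiplicative.toAdd.injective (Prod.ext (funext fun i => ?_) ?_)⟩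
  · have e : ZMod.unitsMap (hqL i) t = r i ^ 2 := Units.ext (by
      rw [htwo (hq i) (hqL i) (fun h => by have := hq8 i; omega) t ht, Units.val_pow_eq_pow_val,
        hr])
    rw [hψ1, e, map_pow, toAdd_pow, toAdd_mul, toAdd_pow, hw]
    simp [gElt]
  · have h2 : q₀ ≠ 2 := by omega
    have e : (f₀ (ZMod.unitsMap hq₀L t)).toAdd ≠ 0 := fun h => by
      obtain ⟨s, hs⟩ := hf₀sq _ (Multiplicative.toAdd.injective h)
      have h' : IsSquare (2 : ZMod q₀) := ⟨s, by rw [← htwo hq₀ hq₀L h2 t ht, hs, Units.val_mul]⟩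
      rw [ZMod.exists_sq_eq_two_iff h2] at h'
      omega
    have : (f₀ (ZMod.unitsMap hq₀L t)).toAdd = 1 :=
      (show ∀ x : ZMod 2, x ≠ 0 → x = 1 by decide) _ e
    rw [hψ2, this, toAdd_mul, toAdd_pow, hw]
    simp [gElt]

end Existence

/-! ### The level of the projection -/

section Level

variable {L : ℕ}

theorem odd_half (hL : Squarefree L) (h2L : 2 ∣ L) : Odd (L / 2) := by
  rw [← Nat.not_even_iff_odd, even_iff_two_dvd, Nat.dvd_div_iff_mul_dvd h2L]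
  exact fun h => Nat.prime_two.not_isUnit (hL 2 h)

theorem unitsMap_half_bijective [NeZero L] (hL : Squarefree L) (h2L : 2 ∣ L) :
    Function.Bijective (ZMod.unitsMap (Nat.div_dvd_of_dvd h2L)) := by
  refine ⟨(injective_iff_map_eq_one _).2 fun u hu => ?_, ZMod.unitsMap_surjective _⟩
  have h1 : ((L / 2 : ℕ) : ℤ) ∣ ((u : ZMod L).val : ℤ) - 1 := by
    have h := congrArg (Units.val) hu
    rw [ZMod.unitsMap_val, ZMod.cast_eq_val, Units.val_one, eq_comm] at h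
    rw [← ZMod.intCast_eq_intCast_iff_dvd_sub]
    exact_mod_cast h
  refine Units.ext ?_
  rw [Units.val_one, ← ZMod.natCast_zmod_val (u : ZMod L), eq_comm]
  have h : ((1 : ℤ) : ZMod L) = ((u : ZMod L).val : ℤ) := by
    rw [ZMod.intCast_eq_intCast_iff_dvd_sub]
    refine dvd_of_forall_prime_dvd hL fun w hw hwL => ?_
    rcases eq_or_ne w 2 with rfl | hw2
    · have hodd : Odd (u : ZMod L).val := Nat.Coprime.odd_of_right
        ((ZMod.val_coe_unit_coprime u).of_dvd_right h2L)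
      obtain ⟨k, hk⟩ := hodd
      exact ⟨k, by rw [hk]; push_cast; ring⟩
    · refine (Int.natCast_dvd_natCast.2 ?_).trans h1
      exact Nat.dvd_div_of_mul_dvd
        (((Nat.coprime_primes Nat.prime_two hw).mpr hw2.symm).mul_dvd_of_dvd_of_dvd h2L hwL)
  exact_mod_cast h

/-- `(ℤ/L)ˣ ≅ (ℤ/(L/2))ˣ` for squarefree even `L`. -/
def halfEquiv [NeZero L] (hL : Squarefree L) (h2L : 2 ∣ L) :
    (ZMod L)ˣ ≃* (ZMod (L / 2))ˣ :=
  MulEquiv.ofBijective _ (unitsMap_half_bijective hL h2L)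

theorem unitsMap_cycHom [NeZero L] {M : ℕ} [NeZero M] (h : M ∣ L)
    (σ : Deform.Gal) : ZMod.unitsMap h (cycHom L σ) = Deform.cycHom M σ := by
  refine Units.ext ?_
  rw [ZMod.unitsMap_val, ZMod.cast_eq_val]
  refine (Deform.cycHom_eq_natCast fun ζ hζ => ?_).symm
  obtain ⟨c, rfl⟩ := h
  exact Deform.apply_root_cycHom σ (by rw [pow_mul, hζ, one_pow])

variable {O : Type} [CommRing O] [IsLocalRing O] (S : Deform.Setting O) [NeZero L]
  [NeZero (L / 2)] (hL : Squarefree L) (h2L : 2 ∣ L) {Δ : Type} [CommGroup Δ]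
  (ψ : (ZMod L)ˣ →* Δ) (Q : Finset ℕ)
  (hQp : ∀ q ∈ Q, q.Prime) (hQ2 : ∀ q ∈ Q, q ≠ 2) (hQT : ∀ q ∈ Q, q ∉ S.T)
  (hψ : ∀ v : ℕ, v.Prime → v ∣ L → v ∉ Q → ∀ u : (ZMod L)ˣ,
    ((u : ZMod L).cast : ZMod (L / v)) = 1 → ψ u = 1)
  (w : (ZMod L)ˣ)
  (hw : ∀ t : (ZMod L)ˣ, ((t : ZMod L).cast : ZMod (L / 2)) = 2 → ψ t = ψ w ^ 2)

omit [NeZero (L / 2)] in
include hL h2L hψ in
theorem half_components (v : ℕ) (hv : v.Prime) (hvL : v ∣ L / 2) (hvQ : v ∉ Q)
    (u : (ZMod (L / 2))ˣ) (hu : ((u : ZMod (L / 2)).cast : ZMod (L / 2 / v)) = 1) :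
    ψ.comp (halfEquiv hL h2L).symm.toMonoidHom u = 1 := by
  have hvL' : v ∣ L := hvL.trans (Nat.div_dvd_of_dvd h2L)
  have hv2 : v ≠ 2 := fun h =>
    (Nat.not_even_iff_odd.2 (odd_half hL h2L)) (even_iff_two_dvd.2 (h ▸ hvL))
  refine hψ v hv hvL' hvQ _ ?_
  set y := (halfEquiv hL h2L).symm u
  have hy : ZMod.unitsMap (Nat.div_dvd_of_dvd h2L) y = u := (halfEquiv hL h2L).apply_symm_apply u
  obtain ⟨k, hk⟩ := hvL'
  have hdiv : L / v = k := by rw [hk, Nat.mul_div_cancel_left _ hv.pos]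
  have : NeZero (L / v) := ⟨fun h => NeZero.ne L (by rw [hk, ← hdiv, h, mul_zero])⟩
  have h2v : 2 ∣ L / v := Nat.dvd_div_of_mul_dvd
    (((Nat.coprime_primes hv Nat.prime_two).mpr hv2).mul_dvd_of_dvd_of_dvd ⟨k, hk⟩ h2L)
  have hsq : Squarefree (L / v) :=
    hL.squarefree_of_dvd (Nat.div_dvd_of_dvd ⟨k, hk⟩)
  have e : L / v / 2 = L / 2 / v := by
    rw [Nat.div_div_eq_div_mul, Nat.div_div_eq_div_mul, mul_comm]
  have key : ZMod.unitsMap (Nat.div_dvd_of_dvd (⟨k, hk⟩ : v ∣ L)) y = 1 := by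
    apply (unitsMap_half_bijective hsq h2v).1
    rw [map_one, ← MonoidHom.comp_apply, ZMod.unitsMap_comp]
    refine Units.ext ?_
    rw [ZMod.unitsMap_val, Units.val_one]
    have h := hu
    rw [← hy, ZMod.unitsMap_val] at h
    rw [e]
    rw [← ZMod.castHom_apply (h := Nat.div_dvd_of_dvd hvL), ← ZMod.castHom_apply
      (h := Nat.div_dvd_of_dvd h2L), ← RingHom.comp_apply] at h
    refine Eq.trans ?_ h
    exact RingHom.congr_fun (Subsingleton.elim
      (ZMod.castHom ((Nat.div_dvd_of_dvd hvL).trans (Nat.div_dvd_of_dvd h2L)) _) _) (y : ZMod L)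
  have := congrArg Units.val key
  rwa [ZMod.unitsMap_val, Units.val_one] at this

/-- The level cut out by a character of squarefree even modulus. -/
def levelOfChar : Deform.Level S :=
  Deform.Level.ofChar S (odd_half hL h2L) (hL.squarefree_of_dvd (Nat.div_dvd_of_dvd h2L))
    (ψ.comp (halfEquiv hL h2L).symm.toMonoidHom) Q hQp hQ2 hQT
    (half_components hL h2L ψ Q hψ) (halfEquiv hL h2L w) fun t ht => by
      simp only [MonoidHom.comp_apply, MulEquiv.coe_toMonoidHom, MulEquiv.symm_apply_apply]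
      refine (hw _ ?_).symm
      rw [← ZMod.unitsMap_val (Nat.div_dvd_of_dvd h2L), ← ht]
      exact congrArg Units.val ((halfEquiv hL h2L).apply_symm_apply t)

theorem levelOfChar_Q : (levelOfChar S hL h2L ψ Q hQp hQ2 hQT hψ w hw).Q = Q := rfl

theorem mem_levelOfChar_H (σ : Deform.Gal) :
    σ ∈ (levelOfChar S hL h2L ψ Q hQp hQ2 hQT hψ w hw).H ↔ ψ (cycHom L σ) = 1 := by
  rw [levelOfChar, Deform.Level.mem_ofChar_H, ← unitsMap_cycHom (Nat.div_dvd_of_dvd h2L) σ,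
    MonoidHom.comp_apply, MulEquiv.coe_toMonoidHom]
  exact Iff.of_eq (congrArg (fun x => ψ x = 1) ((halfEquiv hL h2L).symm_apply_apply _))

theorem levelOfChar_H_le :
    (levelOfChar S hL h2L ψ Q hQp hQ2 hQT hψ w hw).H ≤ (ψ.comp (cycHom L)).ker := fun σ hσ =>
  MonoidHom.mem_ker.2 ((mem_levelOfChar_H S hL h2L ψ Q hQp hQ2 hQT hψ w hw σ).1 hσ)

theorem cycHom_levelOfChar_root2 :
    cycHom L (levelOfChar S hL h2L ψ Q hQp hQ2 hQT hψ w hw).root2 = w := by
  apply (halfEquiv hL h2L).injective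
  refine (unitsMap_cycHom (Nat.div_dvd_of_dvd h2L) _).trans ?_
  exact Deform.Level.cycHom_ofChar_root2 S _ _ _ Q hQp hQ2 hQT _ _ _

include hL h2L in
/-- A Frobenius at `2` is `2` modulo `L / 2`. -/
theorem cast_cycHom_φ2 : ((cycHom L S.φ2 : ZMod L).cast : ZMod (L / 2)) = 2 := by
  rw [← ZMod.unitsMap_val (Nat.div_dvd_of_dvd h2L), unitsMap_cycHom,
    Deform.cycHom_frobenius Nat.prime_two
      (fun h => Nat.not_even_iff_odd.2 (odd_half hL h2L) (even_iff_two_dvd.2 h))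
      S.P2_over S.φ2_frob, Nat.cast_ofNat]

end Level

section Projection

variable {ι : Type} {n L q₀ : ℕ} {q : ι → ℕ} {ψ : (ZMod L)ˣ →* PsiGroup ι n}

/-- The projection of the character of a level satisfies the hypotheses of `levelOfChar`. -/
theorem toQ_comp_spec [Fintype ι] (hsurj : Function.Surjective ψ) (hev : HasEvenComponents ψ)
    (hcomp : ∀ v : ℕ, v.Prime → v ∣ L → ∀ u : (ZMod L)ˣ,
      ((u : ZMod L).cast : ZMod (L / v)) = 1 →
      (∀ i, q i ≠ v → (ψ u).toAdd.1 i = 0) ∧ (q₀ ≠ v → (ψ u).toAdd.2 = 0))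
    {w : (ZMod L)ˣ} (hw : ∀ t : (ZMod L)ˣ, ((t : ZMod L).cast : ZMod (L / 2)) = 2 →
      ψ t = gElt * ψ w ^ 2) :
    Function.Surjective (toQ.comp ψ) ∧ HasEvenComponents (toQ.comp ψ) ∧
      (∀ v : ℕ, v.Prime → v ∣ L → v ∉ Finset.univ.image q → ∀ u : (ZMod L)ˣ,
        ((u : ZMod L).cast : ZMod (L / v)) = 1 → toQ.comp ψ u = 1) ∧
      ∀ t : (ZMod L)ˣ, ((t : ZMod L).cast : ZMod (L / 2)) = 2 →
        toQ.comp ψ t = toQ.comp ψ w ^ 2 := by
  refine ⟨toQ_surjective.comp hsurj, fun v hv hvL u hu hu2 => ?_, fun v hv hvL hvQ u hu => ?_,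
    fun t ht => ?_⟩
  · rw [MonoidHom.comp_apply, hev v hv hvL u hu hu2, map_one]
  · rw [MonoidHom.comp_apply, toQ_apply, ← ofAdd_zero]
    exact congrArg _ (funext fun i => (hcomp v hv hvL u hu).1 i fun h =>
      hvQ (Finset.mem_image.2 ⟨i, Finset.mem_univ i, h⟩))
  · rw [MonoidHom.comp_apply, MonoidHom.comp_apply, hw t ht, map_mul, map_pow, toQ_gElt, one_mul]

end Projection

end Fermat.Agent.TwoAdic.Module.Local
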