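import Mathlib.NumberTheory.LegendreSymbol.QuadraticChar.Basic
import Mathlib.NumberTheory.GaussSum
import Fermat.Agent.TwoAdic.Module.Glue.Conditions
import Fermat.Agent.TwoAdic.Module.Local.LevelPsi

/-!
# Monomials in the diamonds of the tame generators

An element moving `√q`, `q ≡ 1 mod 4`, acts on the `q`-th roots of unity through a non-square, so
the diamond of a tame generator at an auxiliary prime has odd exponent at its factor: the monomials
in these diamonds and `gElt` are every element of the group of diamonds exactly once.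
-/

set_option autoImplicit false

noncomputable section

namespace Fermat.Agent.TwoAdic.Module.Local

open GaloisReps (AbsGal)

/-- An element moving `√q` is a non-square on the `q`-th roots of unity, `q ≡ 1 mod 4`. -/
theorem not_isSquare_cycHom {q : ℕ} [Fact q.Prime] (h4 : q % 4 = 1) {σ : AbsGal}
    {y : AlgebraicClosure ℚ} (hy : y ^ 2 = (q : AlgebraicClosure ℚ)) (hσ : σ y ≠ y) :
    ¬ IsSquare (cycHom q σ) := by
  classical
  intro hsq
  have : NeZero q := ⟨(Fact.out : q.Prime).ne_zero⟩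
  obtain ⟨ζ, hζ⟩ := HasEnoughRootsOfUnity.exists_primitiveRoot (AlgebraicClosure ℚ) q
  have hchar : ringChar (ZMod q) ≠ 2 := by rw [ZMod.ringChar_zmod_n]; omega
  let ψ : AddChar (ZMod q) (AlgebraicClosure ℚ) := AddChar.zmodChar q hζ.pow_eq_one
  have hprim : ψ.IsPrimitive := AddChar.zmodChar_primitive_of_primitive_root q hζ
  set χ : MulChar (ZMod q) (AlgebraicClosure ℚ) :=
    (quadraticChar (ZMod q)).ringHomComp (Int.castRingHom (AlgebraicClosure ℚ)) with hχdef
  have hquad : χ.IsQuadratic := (quadraticChar_isQuadratic (ZMod q)).comp _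
  have hne : χ ≠ 1 := by
    obtain ⟨a, ha⟩ := quadraticChar_exists_neg_one' hchar
    intro h
    have h1 := MulChar.one_apply_coe (R' := AlgebraicClosure ℚ) a
    rw [← h, hχdef, MulChar.ringHomComp_apply, ha] at h1
    norm_num at h1
  have hneg : χ (-1) = 1 := by
    obtain ⟨r, hr⟩ := ZMod.exists_sq_eq_neg_one_iff.2 (show q % 4 ≠ 3 by omega)
    rw [hr, map_mul, ← sq, ← MulChar.pow_apply' _ two_ne_zero, hquad.sq_eq_one,
      MulChar.one_apply]
    refine isUnit_iff_ne_zero.2 fun h0 => ?_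
    rw [h0, mul_zero] at hr
    exact one_ne_zero (neg_eq_zero.1 hr)
  obtain ⟨g, hgdef⟩ : ∃ g, g = gaussSum χ ψ := ⟨_, rfl⟩
  have hg2 : g ^ 2 = y ^ 2 := by rw [hgdef, gaussSum_sq hne hquad hprim, hneg, one_mul, ZMod.card, hy]
  obtain ⟨d, hd⟩ := hsq
  set c := cycHom q σ with hc
  have hχc : χ (c : ZMod q) = 1 := by
    rw [hd, Units.val_mul, map_mul, ← sq, ← MulChar.pow_apply' _ two_ne_zero, hquad.sq_eq_one,
      MulChar.one_apply_coe]
  have hint : ∀ x : ZMod q, σ (χ x) = χ x := fun x => by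
    rw [hχdef, MulChar.ringHomComp_apply]
    exact map_intCast σ _
  have hroot : ∀ x : ZMod q, σ (ψ x) = AddChar.mulShift ψ (c : ZMod q) x := fun x => by
    have hx : (ψ x) ^ q = 1 := by
      rw [← AddChar.map_nsmul_eq_pow, nsmul_eq_mul, ZMod.natCast_self, zero_mul,
        AddChar.map_zero_eq_one]
    rw [apply_root_component (L := q) dvd_rfl σ hx, ← hc, ZMod.cast_id, AddChar.mulShift_apply,
      ← AddChar.map_nsmul_eq_pow, nsmul_eq_mul, ZMod.natCast_zmod_val]
  have hσg : σ g = g := by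
    have h1 : σ g = gaussSum χ (AddChar.mulShift ψ (c : ZMod q)) := by
      simp only [hgdef, gaussSum, map_sum, map_mul, hint, hroot]
    have h2 := gaussSum_mulShift χ ψ c
    rw [hχc, one_mul] at h2
    rw [h1, h2, hgdef]
  rcases sq_eq_sq_iff_eq_or_eq_neg.1 hg2 with h | h
  · exact hσ (h ▸ hσg)
  · refine hσ (neg_injective ?_)
    rw [← map_neg, ← h, hσg]

variable {ι : Type} {n L : ℕ}

/-- The group of diamonds is killed by `2 ^ n`. -/
theorem psiGroup_pow_eq_one (hn : n ≠ 0) (x : PsiGroup ι n) : x ^ 2 ^ n = 1 := by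
  refine Multiplicative.toAdd.injective (Prod.ext (funext fun i => ?_) ?_)
  · rw [toAdd_pow, toAdd_one, Prod.smul_fst, Pi.smul_apply, nsmul_eq_mul, ZMod.natCast_self,
      zero_mul]
    rfl
  · rw [toAdd_pow, toAdd_one, Prod.smul_snd, nsmul_eq_mul,
      (ZMod.natCast_eq_zero_iff (2 ^ n) 2).2 (dvd_pow_self 2 hn), zero_mul]
    rfl

/-- Units with the same components at `v` and away from `v` are equal. -/
theorem unit_ext_of_components (hL : Squarefree L) {v : ℕ} (hv : v.Prime) (hvL : v ∣ L)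
    {u u' : (ZMod L)ˣ} (h1 : ZMod.unitsMap hvL u = ZMod.unitsMap hvL u')
    (h2 : ((u : ZMod L).cast : ZMod (L / v)) = (u' : ZMod L).cast) : u = u' := by
  have hcop : v.Coprime (L / v) := hv.coprime_iff_not_dvd.mpr fun hd =>
    hv.not_isUnit (hL _ ((Nat.dvd_div_iff_mul_dvd hvL).1 hd))
  have hmul : v * (L / v) = L := Nat.mul_div_cancel' hvL
  let c : ZMod L ≃+* ZMod v × ZMod (L / v) :=
    (ZMod.ringEquivCongr hmul.symm).trans (ZMod.chineseRemainder hcop)
  have e1 : ∀ x : ZMod L, (c x).1 = x.cast := fun x => by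
    rw [← ZMod.castHom_apply (h := hvL)]
    exact (RingHom.congr_fun (Subsingleton.elim (ZMod.castHom hvL _)
      ((RingHom.fst _ _).comp c.toRingHom)) x).symm
  have e2 : ∀ x : ZMod L, (c x).2 = x.cast := fun x => by
    rw [← ZMod.castHom_apply (h := Nat.div_dvd_of_dvd hvL)]
    exact (RingHom.congr_fun (Subsingleton.elim (ZMod.castHom (Nat.div_dvd_of_dvd hvL) _)
      ((RingHom.snd _ _).comp c.toRingHom)) x).symm
  refine Units.ext (c.injective (Prod.ext ?_ ?_))
  · rw [e1, e1, ← ZMod.unitsMap_val hvL u, ← ZMod.unitsMap_val hvL u', h1]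
  · rw [e2, e2, h2]

/-- A non-square of the component at `q i` has odd exponent at the `i`-th factor. -/
theorem isUnit_component [DecidableEq ι] (hL : Squarefree L) {q : ι → ℕ} {i : ι} (hn : n ≠ 0)
    (hqi : (q i).Prime) (hqL : q i ∣ L) {ψ : (ZMod L)ˣ →* PsiGroup ι n}
    (hgen : ∃ u : (ZMod L)ˣ, ((u : ZMod L).cast : ZMod (L / q i)) = 1 ∧ ψ u = genElt i)
    {u : (ZMod L)ˣ} (hu : ((u : ZMod L).cast : ZMod (L / q i)) = 1)
    (hns : ¬ IsSquare (ZMod.unitsMap hqL u)) : IsUnit ((ψ u).toAdd.1 i) := by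
  have : Fact (q i).Prime := ⟨hqi⟩
  obtain ⟨u₁, hu₁, hψ₁⟩ := hgen
  have hcop : (q i).Coprime (L / q i) := hqi.coprime_iff_not_dvd.mpr fun hd =>
    hqi.not_isUnit (hL _ ((Nat.dvd_div_iff_mul_dvd hqL).1 hd))
  obtain ⟨a, ha⟩ := IsCyclic.exists_monoid_generator (α := (ZMod (q i))ˣ)
  obtain ⟨u₀, hu₀, hu₀a⟩ := RT.Assembly.exists_unit_crt hqL hcop a
  have hpow : ∀ {w : (ZMod L)ˣ}, ((w : ZMod L).cast : ZMod (L / q i)) = 1 →
      ∀ k : ℕ, ZMod.unitsMap hqL w = a ^ k → (ψ w).toAdd.1 i = k * (ψ u₀).toAdd.1 i := by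
    intro w hw k hk
    have e : w = u₀ ^ k := unit_ext_of_components hL hqi hqL (by rw [hk, map_pow, hu₀a]) (by
      rw [hw, Units.val_pow_eq_pow_val, ← ZMod.castHom_apply (h := Nat.div_dvd_of_dvd hqL),
        map_pow, ZMod.castHom_apply, hu₀, one_pow])
    rw [e, map_pow, toAdd_pow, Prod.smul_fst, Pi.smul_apply, nsmul_eq_mul]
  obtain ⟨k₁, hk₁⟩ := ha (ZMod.unitsMap hqL u₁)
  have h1 := hpow hu₁ k₁ hk₁.symm
  rw [hψ₁] at h1
  replace h1 : (Pi.single i 1 : ι → ZMod (2 ^ n)) i = _ := h1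
  rw [Pi.single_eq_same] at h1
  obtain ⟨k, hk⟩ := ha (ZMod.unitsMap hqL u)
  dsimp only at hk
  rw [hpow hu k hk.symm]
  refine IsUnit.mul ?_ (IsUnit.of_mul_eq_one_right _ h1.symm)
  rw [ZMod.isUnit_iff_coprime]
  refine Nat.Coprime.pow_right n ?_
  rw [Nat.coprime_two_right]
  by_contra hev
  rw [Nat.not_odd_iff_even] at hev
  obtain ⟨j, rfl⟩ := hev
  exact hns ⟨a ^ j, by rw [← hk, pow_add]⟩

/-- **The monomials in the tame diamonds and `gElt`** are every diamond exactly once. -/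
theorem monomials_bijective [Fintype ι] [DecidableEq ι] [NeZero L] (hn : n ≠ 0)
    (hL : Squarefree L) {q₀ : ℕ} {q : ι → ℕ} (hq : ∀ i, (q i).Prime) (hqL : ∀ i, q i ∣ L)
    (hinj : Function.Injective q) (h4 : ∀ i, q i % 4 = 1) {ψ : (ZMod L)ˣ →* PsiGroup ι n}
    (hcomp : ∀ v : ℕ, v.Prime → v ∣ L → ∀ u : (ZMod L)ˣ,
      ((u : ZMod L).cast : ZMod (L / v)) = 1 →
      (∀ i, q i ≠ v → (ψ u).toAdd.1 i = 0) ∧ (q₀ ≠ v → (ψ u).toAdd.2 = 0))
    (hgen : ∀ i, ∃ u : (ZMod L)ˣ, ((u : ZMod L).cast : ZMod (L / q i)) = 1 ∧ ψ u = genElt i)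
    {O : Type} [CommRing O] [IsLocalRing O] {S : Deform.Setting O} {Lv : Deform.Level S}
    (D : Deform.Aux S Lv) (e : ι ≃ D.ι) (he : ∀ i, D.q (e i) = q i) :
    Function.Bijective fun p : (D.ι → Fin (2 ^ n)) × Fin 2 =>
      (∏ l, ψ (cycHom L (D.τ l)) ^ (p.1 l : ℕ)) * gElt ^ (p.2 : ℕ) := by
  classical
  set x : D.ι → PsiGroup ι n := fun l => ψ (cycHom L (D.τ l)) with hxdef
  have hloc : ∀ i, ((cycHom L (D.τ (e i)) : ZMod L).cast : ZMod (L / q i)) = 1 := fun i =>
    cycHom_inertia_component hL (hq i) (hqL i) (he i ▸ D.P_over (e i)) (D.τ_mem (e i))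
  have hoff : ∀ i j, i ≠ j → (x (e j)).toAdd.1 i = 0 := fun i j hij =>
    (hcomp _ (hq j) (hqL j) _ (hloc j)).1 i fun h => hij (hinj h)
  have hdiag : ∀ i, IsUnit ((x (e i)).toAdd.1 i) := fun i => by
    have : Fact (q i).Prime := ⟨hq i⟩
    have : NeZero (q i) := ⟨(hq i).ne_zero⟩
    refine isUnit_component hL hn (hq i) (hqL i) (hgen i) (hloc i) fun hs => ?_
    obtain ⟨y, hy, hmove⟩ := D.τ_gen (e i)
    rw [he i] at hy
    refine not_isSquare_cycHom (h4 i) hy hmove ?_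
    rwa [show cycHom (q i) (D.τ (e i)) = ZMod.unitsMap (hqL i) (cycHom L (D.τ (e i))) from
      Units.ext (by
        rw [ZMod.unitsMap_val]
        refine (cycHom_eq_of_roots fun μ hμ => apply_root_component (hqL i) _ hμ).trans ?_
        rw [ZMod.natCast_zmod_val])]
  have hfst : ∀ (p : (D.ι → Fin (2 ^ n)) × Fin 2) (i : ι),
      ((∏ l, x l ^ (p.1 l : ℕ)) * gElt ^ (p.2 : ℕ)).toAdd.1 i =
        ((p.1 (e i) : ℕ) : ZMod (2 ^ n)) * (x (e i)).toAdd.1 i := fun p i => by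
    rw [toAdd_mul, toAdd_prod, Prod.fst_add, Prod.fst_sum, Pi.add_apply, Finset.sum_apply,
      Finset.sum_eq_single (e i) (fun l _ hl => ?_) (fun h => absurd (Finset.mem_univ _) h)]
    · rw [toAdd_pow, toAdd_pow, Prod.smul_fst, Prod.smul_fst, Pi.smul_apply, Pi.smul_apply,
        show (gElt : PsiGroup ι n).toAdd.1 i = 0 from rfl, smul_zero, add_zero, nsmul_eq_mul]
    · obtain ⟨j, rfl⟩ := e.surjective l
      rw [toAdd_pow, Prod.smul_fst, Pi.smul_apply, hoff i j fun h => hl (h ▸ rfl), smul_zero]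
  rw [Fintype.bijective_iff_injective_and_card]
  refine ⟨fun p p' h => ?_, ?_⟩
  · change (∏ l, x l ^ (p.1 l : ℕ)) * gElt ^ (p.2 : ℕ) =
      (∏ l, x l ^ (p'.1 l : ℕ)) * gElt ^ (p'.2 : ℕ) at h
    have h1 : p.1 = p'.1 := funext fun l => by
      obtain ⟨i, rfl⟩ := e.surjective l
      have hi := congrArg (fun z => (Multiplicative.toAdd z).1 i) h
      simp only [hfst] at hi
      have h' := congrArg ZMod.val ((hdiag i).mul_left_injective hi)
      rw [ZMod.val_natCast, ZMod.val_natCast, Nat.mod_eq_of_lt (p.1 (e i)).isLt,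
        Nat.mod_eq_of_lt (p'.1 (e i)).isLt] at h'
      exact Fin.ext h'
    rw [h1] at h
    have h2 := congrArg (fun z => (Multiplicative.toAdd z).2) (mul_left_cancel h)
    simp only [toAdd_pow, gElt, toAdd_ofAdd, Prod.smul_snd, nsmul_one] at h2
    refine Prod.ext h1 (Fin.ext ?_)
    have h' := congrArg ZMod.val h2
    rwa [ZMod.val_natCast, ZMod.val_natCast, Nat.mod_eq_of_lt p.2.isLt,
      Nat.mod_eq_of_lt p'.2.isLt] at h'
  · simp [Fintype.card_congr e]

end Fermat.Agent.TwoAdic.Module.Local
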