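import Fermat.Agent.TwoAdic.Module.Local.Main
import Fermat.Agent.TwoAdic.Module.Glue.Rep
import Fermat.Agent.TwoAdic.Deform.CurvePoint
import Fermat.Agent.TwoAdic.Deform.Make
import Fermat.Agent.TwoAdic.Theta.Identify
import Fermat.Agent.GaloisReps.Models

/-!
# The residual data of a curve at the base level

For `IsTwoAdicCurve W` the system `curveAbar W = a_ℓ mod 2` is the system of Frobenius traces of
the residual matrices of `curveSetting`, a form of level dividing `2 m` carries it (theta series),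
it is not Eisenstein, and there are auxiliary primes `≡ 3 (mod 4)` with odd Frobenius trace, which
make `Γ₀` free of elements of order four.
-/

set_option autoImplicit false

noncomputable section

namespace Fermat.Agent.TwoAdic.Module.Local

open IsLocalRing
open Fermat.Agent.Arith (QBar)
open Fermat.Agent.Deform (Gal M2)
open Fermat.Agent.RT.GammaH
open Fermat.Agent.TwoAdic.Curve Fermat.Agent.TwoAdic.Deform
open WeierstrassCurve

variable {W : WeierstrassCurve ℤ} (h : IsTwoAdicCurve W)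
variable (O : Type) [CommRing O] [IsLocalRing O]

/-- The system `a_ℓ mod 2` of the curve. -/
def curveAbar (W : WeierstrassCurve ℤ) (ℓ : ℕ) : ResidueField O :=
  (W.apOfModel ℓ : ResidueField O)

/-- The conductor `2 m` of the curve. -/
def baseLevel (W : WeierstrassCurve ℤ) : ℕ := 2 * ∏ q ∈ badOdd W, q

include h in
theorem baseLevel_ne_zero : baseLevel W ≠ 0 :=
  mul_ne_zero two_ne_zero (Finset.prod_ne_zero_iff.2 fun _ hq =>
    ((mem_badOdd h.delta_ne_zero).1 hq).2.1.ne_zero)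

include h in
theorem prime_dvd_baseLevel_iff {q : ℕ} (hq : q.Prime) : q ∣ baseLevel W ↔ (q : ℤ) ∣ W.Δ := by
  rw [baseLevel, hq.dvd_mul, Nat.prime_dvd_prime_iff_eq hq Nat.prime_two,
    Prime.dvd_finsetProd_iff hq.prime]
  constructor
  · rintro (rfl | ⟨r, hr, hqr⟩)
    · exact h.two_dvd
    · obtain ⟨-, hrp, hrd⟩ := (mem_badOdd h.delta_ne_zero).1 hr
      rwa [(Nat.prime_dvd_prime_iff_eq hq hrp).1 hqr]
  · intro hd
    by_cases h2 : q = 2
    · exact Or.inl h2
    · exact Or.inr ⟨q, (mem_badOdd h.delta_ne_zero).2 ⟨h2, hq, hd⟩, dvd_rfl⟩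

include h in
theorem squarefree_baseLevel : Squarefree (baseLevel W) := by
  have hp : ∀ q ∈ badOdd W, q.Prime := fun q hq => ((mem_badOdd h.delta_ne_zero).1 hq).2.1
  refine (Nat.squarefree_mul ?_).2 ⟨Nat.prime_two.squarefree, ?_⟩
  · refine Nat.Coprime.prod_right fun q hq => (Nat.coprime_primes Nat.prime_two (hp q hq)).2 ?_
    exact fun e => ((mem_badOdd h.delta_ne_zero).1 hq).1 e.symm
  · refine Finset.squarefree_prod_of_pairwise_isCoprime (fun a ha b hb hab => ?_)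
      fun q hq => (hp q hq).squarefree
    exact Nat.coprime_iff_isRelPrime.1 ((Nat.coprime_primes (hp a ha) (hp b hb)).2 hab)

variable {O} (h2 : (2 : O) ∈ maximalIdeal O) {S : Finset ℕ}

/-- The system is that of the residual matrices. -/
theorem hasFrobData_curve [IsDomain O] [IsDiscreteValuationRing O] (hS2 : 2 ∈ S)
    (hS : ∀ q : ℕ, q.Prime → (q : ℤ) ∣ W.Δ → q ∈ S) :
    HasFrobData S (curveAbar O W) (curveSetting h h2).W.rb := fun ℓ hℓ hℓS A hA s hs => by
  have hℓ2 : ℓ ≠ 2 := fun e => hℓS (e ▸ hS2)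
  refine ⟨trace_rb_frobenius h h2 hℓ (fun hd => hℓS (hS ℓ hℓ hd)) hℓ2 hA hs, ?_⟩
  have : CharP (ResidueField O) 2 :=
    CharTwo.of_one_ne_zero_of_two_eq_zero one_ne_zero (two_eq_zero_residue h2)
  rw [(curveSetting h h2).det_rb, CharTwo.natCast_eq_ite,
    if_neg (Nat.not_even_iff_odd.2 (hℓ.odd_of_ne_two hℓ2))]

theorem finiteLevel_curve : GaloisFactorsThroughFiniteLevel (curveSetting h h2).W.rb :=
  (curveSetting h h2).rb_finiteLevel

/-- The residual matrices span all matrices. -/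
theorem span_curve :
    Submodule.span (ResidueField O) (Set.range (curveSetting h h2).W.rb) = ⊤ := by
  rw [eq_top_iff]
  have hmem : ∀ M : M2 (ZMod 2), (resTwo h2).mapMatrix M ∈
      Submodule.span (ResidueField O) (Set.range (curveSetting h h2).W.rb) := fun M => by
    obtain ⟨A, B, hA, hB, rfl⟩ := (show ∀ M : M2 (ZMod 2), ∃ A B : M2 (ZMod 2),
      A.det ≠ 0 ∧ (B.det ≠ 0 ∨ B = 0) ∧ A + B = M by decide) M
    rw [map_add]
    refine add_mem ?_ ?_
    · obtain ⟨σ, hσ⟩ := exists_rb_eq h h2 hA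
      exact Submodule.subset_span ⟨σ, hσ⟩
    · rcases hB with hB | rfl
      · obtain ⟨σ, hσ⟩ := exists_rb_eq h h2 hB
        exact Submodule.subset_span ⟨σ, hσ⟩
      · rw [map_zero]; exact zero_mem _
  rintro M -
  rw [Matrix.matrix_eq_sum_single M]
  refine sum_mem fun i _ => sum_mem fun j _ => ?_
  have hij : Matrix.single i j (M i j) =
      M i j • (resTwo h2).mapMatrix (Matrix.single i j 1) := by
    ext a b
    simp only [Matrix.single_apply, Matrix.smul_apply, RingHom.mapMatrix_apply, Matrix.map_apply,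
      smul_eq_mul]
    split <;> simp
  rw [hij]
  exact Submodule.smul_mem _ _ (hmem _)

include h in
/-- A prime outside a finite set, `≡ 3 (mod 4)`, all whose Frobenius elements have trace one. -/
theorem exists_auxPrime_three (T : Finset ℕ) :
    ∃ l : ℕ, l.Prime ∧ l % 4 = 3 ∧ l ∉ T ∧ W.IsGoodPrimeFor l ∧ (W.apOfModel l : ZMod 2) = 1 ∧
      ∀ A : ValuationSubring QBar, A.LiesOverPrime l → ∀ σ : Gal, A.IsFrobeniusAt σ l →
        (curveRho h σ).trace = 1 := by
  classical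
  set ρ := curveRho h
  -- a matrix of order three and a complex sign
  obtain ⟨g₀, hg₀⟩ := exists_curveRho_eq h (M := Selmer.rotM) (by decide)
  obtain ⟨c, hc⟩ := Deform.cycHom_surjective (L := 4) (-1)
  obtain ⟨q, hq, hqd, hq8⟩ := h.exists_three_five_mod_eight
  obtain ⟨A, hA⟩ := Arith.exists_liesOverPrime hq
  obtain ⟨τ, hτ, hneg, -⟩ := h.exists_inertia_transposition hA hq hqd
  have hτ4 : Deform.cycHom 4 τ = 1 := Deform.cycHom_inertia hq (fun hd => by
    have := Nat.le_of_dvd (by norm_num) hd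
    interval_cases q <;> omega) hA hτ
  have hρτ : ρ τ ≠ 1 ∧ (ρ τ).trace ≠ 1 := by
    have := mt (sign_perm_iff h τ).2 (fun e =>
      sqrtDisc_ne_zero h.delta_ne_zero (neg_eq_self.mp (hneg.symm.trans e)))
    push Not at this
    exact this
  obtain ⟨c', hc', hc'3⟩ : ∃ c', Deform.cycHom 4 c' = -1 ∧ (ρ c' = 1 ∨ (ρ c').trace = 1) := by
    by_cases hca : ρ c = 1 ∨ (ρ c).trace = 1
    · exact ⟨c, hc, hca⟩
    · refine ⟨c * τ, by rw [map_mul, hc, hτ4, mul_one], ?_⟩
      push Not at hca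
      rw [map_mul]
      exact (show ∀ M N : M2 (ZMod 2), M.det ≠ 0 → N.det ≠ 0 → M ≠ 1 ∧ M.trace ≠ 1 →
        N ≠ 1 ∧ N.trace ≠ 1 → M * N = 1 ∨ (M * N).trace = 1 by decide) _ _
        (isUnit_det_curveRho h c) (isUnit_det_curveRho h τ) hca hρτ
  have hc3 : ρ (c' ^ 3) = 1 := by
    rw [map_pow]
    exact (show ∀ M : M2 (ZMod 2), M.det ≠ 0 → (M = 1 ∨ M.trace = 1) → M ^ 3 = 1 by decide) _
      (isUnit_det_curveRho h c') hc'3
  obtain ⟨g, hg, hgc⟩ : ∃ g, ρ g = Selmer.rotM ∧ Deform.cycHom 4 g = -1 := by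
    rcases (show ∀ u : (ZMod 4)ˣ, u = 1 ∨ u = -1 by decide) (Deform.cycHom 4 g₀) with e | e
    · exact ⟨g₀ * c' ^ 3, by rw [map_mul, hg₀, hc3, mul_one],
        by rw [map_mul, map_pow, e, hc', one_mul]; decide⟩
    · exact ⟨g₀, hg₀, e⟩
  obtain ⟨F, hF, hFρ⟩ := (curveFrame h).ρ_finiteLevel
  obtain ⟨ζ, hζ⟩ : ∃ ζ : QBar, IsPrimitiveRoot ζ 4 :=
    HasEnoughRootsOfUnity.exists_primitiveRoot QBar 4
  have : FiniteDimensional ℚ (IntermediateField.adjoin ℚ {ζ}) :=
    IntermediateField.adjoin.finiteDimensional (Algebra.IsIntegral.isIntegral ζ)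
  have hcyc : ∀ σ : Gal, σ ζ = ζ → Deform.cycHom 4 σ = 1 := fun σ hσ => Units.ext (by
    rw [Units.val_one, ← Nat.cast_one]
    refine Deform.cycHom_eq_natCast fun t ht => ?_
    obtain ⟨i, -, rfl⟩ := hζ.eq_pow_of_pow_eq_one ht
    rw [pow_one, map_pow, hσ])
  obtain ⟨l, hl, hlT, P, hP, σ, hσ, he⟩ := Arith.Chebotarev.exists_frobenius_eq
    (ρ.prod (((Units.coeHom (ZMod 4))).comp (Deform.cycHom 4))) (F ⊔ IntermediateField.adjoin ℚ {ζ})
    (fun σ hσ => Prod.ext (hFρ σ fun x hx => hσ x (SetLike.le_def.1 le_sup_left hx))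
      (by
        show ((Deform.cycHom 4 σ : (ZMod 4)ˣ) : ZMod 4) = 1
        rw [hcyc σ (hσ ζ (SetLike.le_def.1 le_sup_right
          (IntermediateField.mem_adjoin_simple_self ℚ ζ))), Units.val_one]))
    g (T ∪ {2} ∪ W.Δ.natAbs.primeFactors)
  simp only [Finset.mem_union, Finset.mem_singleton, not_or] at hlT
  obtain ⟨⟨hlT, hl2⟩, hlΔ⟩ := hlT
  have hgood : W.IsGoodPrimeFor l := fun hd => hlΔ (Nat.mem_primeFactors.2
    ⟨hl, Int.natCast_dvd.1 hd, Int.natAbs_ne_zero.2 h.delta_ne_zero⟩)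
  simp only [MonoidHom.prod_apply, Prod.mk.injEq, MonoidHom.coe_comp, Function.comp_apply,
    Units.coeHom_apply] at he
  have hl4 : ¬ l ∣ 4 := fun hd =>
    hl2 ((Nat.prime_dvd_prime_iff_eq hl Nat.prime_two).1 (hl.dvd_of_dvd_pow (n := 2) hd))
  have h1 : (curveRho h σ).trace = 1 := by rw [he.1, hg]; decide
  have hap := trace_curveRho_frobenius h hl hgood hl2 hP hσ
  refine ⟨l, hl, ?_, hlT, hgood, hap.symm.trans h1, fun P' hP' σ' hσ' => ?_⟩
  · have e := he.2
    rw [Deform.cycHom_frobenius hl hl4 hP hσ, hgc] at e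
    have := (ZMod.natCast_eq_natCast_iff' l 3 4).1 (e.trans (by decide))
    omega
  · rw [trace_curveRho_frobenius h hl hgood hl2 hP' hσ', hap.symm.trans h1]

include h h2 in
/-- The system is not Eisenstein. -/
theorem not_eisenstein_curve (S : Finset ℕ) :
    ∃ ℓ : ℕ, ℓ.Prime ∧ ℓ ∉ S ∧ curveAbar O W ℓ ≠ 1 + (ℓ : ResidueField O) := by
  obtain ⟨l, hl, hl4, hlS, -, hodd, -⟩ := exists_auxPrime_three h S
  have : CharP (ResidueField O) 2 :=
    CharTwo.of_one_ne_zero_of_two_eq_zero one_ne_zero (two_eq_zero_residue h2)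
  refine ⟨l, hl, hlS, ?_⟩
  rw [CharTwo.natCast_eq_ite, if_neg (by rw [Nat.even_iff]; omega), CharTwo.add_self_eq_zero,
    curveAbar, ← ZMod.cast_intCast (R := ResidueField O) (n := 2) dvd_rfl, hodd,
    ZMod.cast_one']
  exact one_ne_zero

/-- `Γ₀` of a level divisible by a prime `≡ 3 (mod 4)` is free in the sense of `SFree`. -/
theorem sFree_of_auxPrime {L l : ℕ} (hl : l.Prime) (hlL : l ∣ L) (h4 : l % 4 = 3) :
    SFree (gammaH L (⊤ : Subgroup (ZMod L)ˣ)) :=
  sFree_gammaH hl hlL h4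

include h h2 in
/-- The curve is residually modular of a level dividing `2 m` (theta series). -/
theorem isCongruentLevel_curve (hS : ∀ q : ℕ, q.Prime → (q : ℤ) ∣ W.Δ → q ∈ S) :
    ∃ M : ℕ, M ∣ baseLevel W ∧ RT.IsCongruentLevel S (curveAbar O W) M := by
  obtain ⟨m, L, g, hmo, hsq, hbad, hL, hg, 𝔪, hmax, htwo, hcong⟩ :=
    Theta.exists_newform_congruent h
  have hm : baseLevel W = 2 * m := by
    have hT : badOdd W = m.primeFactors := by
      ext q
      rw [mem_badOdd h.delta_ne_zero, Nat.mem_primeFactors]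
      constructor
      · rintro ⟨hq2, hq, hd⟩
        refine ⟨hq, (hq.dvd_mul.1 ((hbad q hq).2 hd)).resolve_left fun h' => ?_, hmo.pos.ne'⟩
        exact hq2 ((Nat.prime_dvd_prime_iff_eq hq Nat.prime_two).1 h')
      · rintro ⟨hq, hd, -⟩
        refine ⟨?_, hq, (hbad q hq).1 (hd.mul_left 2)⟩
        rintro rfl
        exact (Nat.not_even_iff_odd.2 hmo) (even_iff_two_dvd.2 hd)
    rw [baseLevel, hT, Nat.prod_primeFactors_of_squarefree hsq]
  refine ⟨L, hm ▸ hL, g, hg.1, ?_⟩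
  letI : Field (integralClosure ℤ ℂ ⧸ 𝔪) := Ideal.Quotient.field 𝔪
  have : CharP (integralClosure ℤ ℂ ⧸ 𝔪) 2 :=
    (CharP.charP_iff_prime_eq_zero Nat.prime_two).2 (by
      rw [← map_natCast (Ideal.Quotient.mk 𝔪), Ideal.Quotient.eq_zero_iff_mem]
      exact_mod_cast htwo)
  have : CharP (ResidueField O) 2 :=
    CharTwo.of_one_ne_zero_of_two_eq_zero one_ne_zero (two_eq_zero_residue h2)
  letI : Algebra (ZMod 2) (integralClosure ℤ ℂ ⧸ 𝔪) := ZMod.algebra _ 2
  letI : Algebra (ZMod 2) (AlgebraicClosure (ResidueField O)) :=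
    ((algebraMap (ResidueField O) (AlgebraicClosure (ResidueField O))).comp
      (ZMod.castHom dvd_rfl (ResidueField O))).toAlgebra
  have : Fact (Nat.Prime 2) := ⟨Nat.prime_two⟩
  have : Algebra.IsIntegral ℤ (integralClosure ℤ ℂ ⧸ 𝔪) := inferInstance
  have : Algebra.IsIntegral (ZMod 2) (integralClosure ℤ ℂ ⧸ 𝔪) :=
    ⟨fun x => (Algebra.IsIntegral.isIntegral (R := ℤ) x).tower_top⟩
  let j : (integralClosure ℤ ℂ ⧸ 𝔪) →ₐ[ZMod 2] AlgebraicClosure (ResidueField O) :=
    IsAlgClosed.lift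
  refine ⟨j.toRingHom.comp (Ideal.Quotient.mk 𝔪), fun ℓ hℓ hℓS a ha => ?_⟩
  obtain ⟨c, hc, hcm⟩ := hcong ℓ hℓ fun hd => hℓS (hS ℓ hℓ hd)
  rw [show a = c from Subtype.ext (ha.trans hc.symm), RingHom.comp_apply,
    (Ideal.Quotient.mk_eq_mk_iff_sub_mem _ _).2 hcm, map_intCast, map_intCast, curveAbar,
    map_intCast]

include h h2 in
/-- Every level divisible by `2 m` carries the system. -/
theorem isCongruentLevel_curve_of_dvd {N : ℕ} [NeZero N] (hN : baseLevel W ∣ N)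
    (hS : ∀ v : ℕ, v.Prime → v ∣ N → v ∈ S) :
    RT.IsCongruentLevel S (curveAbar O W) N := by
  have hSΔ : ∀ q : ℕ, q.Prime → (q : ℤ) ∣ W.Δ → q ∈ S := fun q hq hd =>
    hS q hq (((prime_dvd_baseLevel_iff h hq).2 hd).trans hN)
  obtain ⟨M, hM, hMc⟩ := isCongruentLevel_curve h h2 hSΔ
  exact isCongruentLevel_of_dvd (hM.trans hN) hS hMc

end Fermat.Agent.TwoAdic.Module.Local
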