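import Fermat.Agent.TwoAdic.Module.Local.Data
import Fermat.Agent.TwoAdic.Module.Twist.Newform
import Fermat.Agent.TwoAdic.Module.Twist.Semisimple

/-!
# The localised module at `p = 2`, unconditionally

The semisimplicity of the Hecke operators and the twisted newforms of eigen homomorphisms feed the
construction of `Local.Data`.
-/

set_option autoImplicit false

noncomputable section

namespace Fermat.Agent.TwoAdic.Module.Local

open IsLocalRing
open Fermat.Agent.RT.GammaH

variable {L : ℕ} [NeZero L] {Δ : Type} [CommGroup Δ] {ψ : (ZMod L)ˣ →* Δ} {S : Finset ℕ}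

theorem heckeSemisimple_ker (hL : Squarefree L) (hev : HasEvenComponents ψ)
    (hS : ∀ v : ℕ, v.Prime → v ∣ L → v ∈ S) : HeckeSemisimple S ψ.ker := fun ℓ hℓ hℓS c _ hφ h =>
  hecke_semisimple' hL (MonoidHom.mem_ker.2 (map_neg_one hL hev))
    (exists_isRoot_of_even hL fun v hv hvL u hu hu2 => MonoidHom.mem_ker.2 (hev v hv hvL u hu hu2))
    (fun hd => hℓS (hS ℓ hℓ.out hd)) c hφ h

theorem twistedInput_ker (hL : Squarefree L) (hev : HasEvenComponents ψ)
    (hS : ∀ v : ℕ, v.Prime → v ∣ L → v ∈ S) : TwistedInput S ψ.ker :=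
  fun χ _ hχ a _ hφ hne hdia hT =>
    isTwistedNewform_of_eigen hL (MonoidHom.mem_ker.2 (map_neg_one hL hev)) S hS χ hχ a hφ hne
      hdia hT

variable {O : Type} [CommRing O] [IsDomain O] [IsDiscreteValuationRing O]
  [IsAdicComplete (maximalIdeal O) O] [Finite (ResidueField O)] [CharZero O]
  [CharP (ResidueField O) 2] {abar : ℕ → ResidueField O} [Finite Δ]

/-- **Existence of the localised module at `p = 2`.** -/
theorem exists_heckeData_two (hL : Squarefree L)
    (hfree : SFree (gammaH L (⊤ : Subgroup (ZMod L)ˣ))) (hΔ : IsPGroup 2 Δ)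
    (hψ : Function.Surjective ψ) (hev : HasEvenComponents ψ)
    (hS : ∀ v : ℕ, v.Prime → v ∣ L → v ∈ S)
    (hEis : ∃ ℓ : ℕ, ℓ.Prime ∧ ℓ ∉ S ∧ abar ℓ ≠ 1 + (ℓ : ResidueField O)) :
    ∃ (e : OpRing O L S) (he : IsLocalizer (resIdeal S abar L) (HomMod O S ψ.ker O) e)
      (b : Fin (Module.finrank O (locModTop e)) → locMod ψ e)
      (hb : Function.Bijective fun c : Fin (Module.finrank O (locModTop e)) × Δ →₀ O =>
        c.sum fun iδ x => x • locDia hψ e iδ.2 (b iδ.1))
      (hred : ∀ (a : OpRing O L S) (n : ℕ), localAct O e (HomMod O S ψ.ker O) a ^ n = 0 →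
        localAct O e (HomMod O S ψ.ker O) a = 0),
      IsLocalizer (resIdeal S abar L) (HomMod O S (⊤ : Subgroup (ZMod L)ˣ) O) e ∧
      (heckeData hψ e he b hb hred).HasNewforms ∧
      ∀ M : ℕ, M ∣ L → RT.IsCongruentLevel S abar M → 0 < Module.finrank O (locModTop e) :=
  exists_heckeData hL hfree hΔ hψ hev hS hEis (heckeSemisimple_ker hL hev hS)
    (twistedInput_ker hL hev hS)

end Fermat.Agent.TwoAdic.Module.Local
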