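import Fermat.Agent.RT.GammaH.Complex

/-!
# Semisimplicity on the localised module from semisimplicity of the Hecke operators

The arguments of `RT.GammaH.Complex` with the parity of the index replaced by the semisimplicity
of each `T_ℓ` on parabolic homomorphisms.
-/

set_option autoImplicit false

noncomputable section

namespace Fermat.Agent.TwoAdic.Module.Local

open MvPolynomial ModularCurve.Period
open Fermat.Agent.RT.GammaH

/-- Each `T_ℓ`, `ℓ ∉ S`, is semisimple on the parabolic homomorphisms. -/
def HeckeSemisimple {L : ℕ} (S : Finset ℕ) (K : Subgroup (ZMod L)ˣ) : Prop :=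
  ∀ (ℓ : ℕ) [Fact ℓ.Prime], ℓ ∉ S → ∀ (c : ℂ) (φ : HomC K),
    φ ∈ parabolicHoms ℂ (gammaH L K) ℂ →
    hecke L K ℓ ℂ (hecke L K ℓ ℂ φ) - (2 * c) • hecke L K ℓ ℂ φ + c ^ 2 • φ = 0 →
    hecke L K ℓ ℂ φ = c • φ

variable {O : Type} [CommRing O] [Algebra O ℂ] {L : ℕ} [NeZero L] {S : Finset ℕ}
  {K : Subgroup (ZMod L)ˣ} (hneg : -1 ∈ K) (hss : HeckeSemisimple S K)

include hneg hss

theorem opPar_isSemisimple_of (a : OpRing O L S) : (opPar hneg a).IsSemisimple := by
  have := finiteDimensional_parabolicHoms (M := L) hneg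
  have hmul : ∀ a b : OpRing O L S, opPar hneg (a * b) = opPar hneg a * opPar hneg b := fun a b =>
    LinearMap.ext fun φ => Subtype.ext (by rw [coe_opPar, map_mul]; rfl)
  induction a using MvPolynomial.induction_on with
  | C c =>
    refine Module.End.isSemisimple_of_squarefree_aeval_eq_zero
      (p := Polynomial.X - Polynomial.C (algebraMap O ℂ c))
      (Polynomial.irreducible_X_sub_C _).squarefree ?_
    refine LinearMap.ext fun φ => Subtype.ext ?_
    rw [map_sub, Polynomial.aeval_X, Polynomial.aeval_C, LinearMap.sub_apply, Submodule.coe_sub,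
      coe_opPar, opC_C]
    exact sub_self _
  | add a b ha hb =>
    have hadd : opPar hneg (a + b) = opPar hneg a + opPar hneg b :=
      LinearMap.ext fun φ => Subtype.ext (by rw [coe_opPar, map_add]; rfl)
    rw [hadd]
    exact ha.add_of_commute ((hmul a b).symm.trans ((congrArg _ (mul_comm a b)).trans (hmul b a))) hb
  | mul_X a i ha =>
    rw [hmul]
    refine ha.mul_of_commute
      ((hmul a (X i)).symm.trans ((congrArg _ (mul_comm a (X i))).trans (hmul (X i) a))) ?_
    rcases i with u | ℓ
    · refine Module.End.isSemisimple_of_squarefree_aeval_eq_zero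
        (p := Polynomial.X ^ orderOf u - Polynomial.C (1 : ℂ)) ?_ ?_
      · exact (Polynomial.separable_X_pow_sub_C (1 : ℂ)
          (Nat.cast_ne_zero.2 (orderOf_pos u).ne') one_ne_zero).squarefree
      · refine LinearMap.ext fun φ => Subtype.ext ?_
        rw [map_sub, map_pow, Polynomial.aeval_X, Polynomial.aeval_C, map_one, ← opPar_pow,
          LinearMap.sub_apply, Submodule.coe_sub, coe_opPar, map_pow, opC_inl_pow,
          pow_orderOf_eq_one, diamond_of_mem ℂ (one_mem K)]
        exact sub_self _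
    · have : Fact ℓ.1.Prime := ⟨ℓ.2.1⟩
      refine isSemisimple_of_sq _ fun c φ h => Subtype.ext ?_
      rw [coe_opPar, opC_inr]
      refine hss ℓ.1 ℓ.2.2 c φ φ.2 ?_
      have h' := congrArg (Subtype.val (p := fun x => x ∈ parabolicHoms ℂ (gammaH L K) ℂ)) h
      simp only [Submodule.coe_add, Submodule.coe_sub, Submodule.coe_smul, coe_opPar, opC_inr] at h'
      exact h'

/-- Semisimplicity on the localised module. -/
theorem smul_eq_zero_of_pow_smul_of (hinj : Function.Injective (algebraMap O ℂ))
    {m : Ideal (OpRing O L S)} {e P : OpRing O L S} (he : IsLocalizer m (HomMod O S K O) e)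
    (hP : P ∉ m)
    (hpar : ∀ φ : HomMod O S K ℂ, IsParabolicHom (gammaH L K) (toHomMod.symm (P • φ)))
    {a : OpRing O L S} {x : HomMod O S K O} (hx : x ∈ localPart O e (HomMod O S K O)) {n : ℕ}
    (h : a ^ n • x = 0) : a • x = 0 := by
  have := finiteDimensional_parabolicHoms (M := L) hneg
  have hw : opC O S K P (toHomC x) ∈ parabolicHoms ℂ (gammaH L K) ℂ :=
    hpar (toHomMod (toHomC x))
  have hn : (opPar hneg a ^ n) ⟨_, hw⟩ = 0 := by
    refine Subtype.ext ?_
    rw [← opPar_pow, coe_opPar]
    show opC O S K (a ^ n) (opC O S K P (toHomC x)) = 0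
    rw [← toHomC_smul, ← toHomC_smul, smul_comm, h, smul_zero, map_zero]
  have h0 := congrArg (Subtype.val (p := fun z => z ∈ parabolicHoms ℂ (gammaH L K) ℂ))
    (eq_zero_of_pow_apply (opPar_isSemisimple_of hneg hss a) hn)
  rw [coe_opPar] at h0
  replace h0 : opC O S K a (opC O S K P (toHomC x)) = 0 := h0
  rw [← toHomC_smul, ← toHomC_smul, smul_comm] at h0
  exact he.eq_zero_of_smul_eq_zero hP (smul_mem_localPart a hx)
    (toHomC_injective hinj (h0.trans (map_zero toHomC).symm))

end Fermat.Agent.TwoAdic.Module.Local
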