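import Fermat.Agent.RT.GammaH.EigenVector
import Fermat.Agent.RT.GammaH.Embed
import Fermat.Agent.RT.GammaH.Lattice
import Fermat.Agent.TwoAdic.Module.FreeTwo
import Fermat.Agent.TwoAdic.Module.Local.Basic
import Fermat.Agent.TwoAdic.Module.Local.Semisimple

/-!
# The localised cohomology of `ker ψ` as `HeckeData`

The module is the range of a localiser on `Hom(Γ_H, O)`, `H = ker ψ`; corestriction identifies its
coinvariants under the diamond operators with the localisation of `Hom(Γ₀(L), O)`.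
-/

set_option autoImplicit false

noncomputable section

namespace Fermat.Agent.TwoAdic.Module.Local

open IsLocalRing MvPolynomial ModularCurve.Period
open Fermat.Agent.RT.GammaH

variable {O : Type} [CommRing O] [IsLocalRing O] {L : ℕ} {Δ : Type} [CommGroup Δ] {ψ : (ZMod L)ˣ →* Δ}
  {S : Finset ℕ}

/-- The localised module of `ker ψ`. -/
abbrev locMod (ψ : (ZMod L)ˣ →* Δ) (e : OpRing O L S) :=
  localPart O e (HomMod O S ψ.ker O)

/-- The localised module of `Γ₀(L)`. -/
abbrev locModTop (e : OpRing O L S) :=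
  localPart O e (HomMod O S (⊤ : Subgroup (ZMod L)ˣ) O)

/-- `T_ℓ` on the localised module, `0` unless `ℓ` is a prime outside `S`. -/
def locT (ψ : (ZMod L)ˣ →* Δ) (e : OpRing O L S) (ℓ : ℕ) :
    Module.End O (locMod ψ e) :=
  if h : ℓ.Prime ∧ ℓ ∉ S then localAct O e (HomMod O S ψ.ker O) (X (Sum.inr ⟨ℓ, h⟩)) else 0

omit [IsLocalRing O] in
theorem locT_eq (e : OpRing O L S) {ℓ : ℕ} (h : ℓ.Prime ∧ ℓ ∉ S) :
    locT ψ e ℓ = localAct O e (HomMod O S ψ.ker O) (X (Sum.inr ⟨ℓ, h⟩)) :=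
  dif_pos h

theorem localAct_inl_congr (e : OpRing O L S) {u v : (ZMod L)ˣ} (h : ψ u = ψ v) :
    localAct O e (HomMod O S ψ.ker O) (X (Sum.inl u)) =
      localAct O e (HomMod O S ψ.ker O) (X (Sum.inl v)) :=
  LinearMap.ext fun x => Subtype.ext <| by
    rw [coe_localAct_apply, coe_localAct_apply, X_inl_smul, X_inl_smul,
      diamond_congr_ker (K := ψ.ker) (fun u => MonoidHom.mem_ker) h]

/-- The action of `Δ` on the localised module. -/
def locDia (hψ : Function.Surjective ψ) (e : OpRing O L S) :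
    Δ →* Module.End O (locMod ψ e) where
  toFun δ := localAct O e (HomMod O S ψ.ker O) (X (Sum.inl (psiInv hψ δ)))
  map_one' := LinearMap.ext fun x => Subtype.ext <| by
    rw [coe_localAct_apply, X_inl_smul]
    exact diamond_of_mem O (MonoidHom.mem_ker.2 (Function.surjInv_eq hψ 1)) _
  map_mul' δ δ' := by
    rw [localAct_inl_congr e (v := psiInv hψ δ * psiInv hψ δ') (by
      rw [map_mul]
      simp only [psiInv, Function.surjInv_eq hψ])]
    exact LinearMap.ext fun x => Subtype.ext <| by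
      rw [Module.End.mul_apply, coe_localAct_apply, coe_localAct_apply, coe_localAct_apply,
        X_inl_smul, X_inl_smul, X_inl_smul]
      exact diamond_mul O _ _ _

theorem locDia_apply (hψ : Function.Surjective ψ) (e : OpRing O L S) (u : (ZMod L)ˣ) :
    locDia hψ e (ψ u) = localAct O e (HomMod O S ψ.ker O) (X (Sum.inl u)) :=
  localAct_inl_congr e (Function.surjInv_eq hψ _)

/-- The Hecke algebra is the image of the polynomial algebra. -/
theorem adjoin_loc_eq_range (hψ : Function.Surjective ψ) (e : OpRing O L S) :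
    Algebra.adjoin O (Set.range (locDia hψ e) ∪ locT ψ e '' {ℓ | ℓ.Prime ∧ ℓ ∉ S}) =
      (localAct O e (HomMod O S ψ.ker O)).range := by
  rw [← Algebra.map_top, ← MvPolynomial.adjoin_range_X, AlgHom.map_adjoin]
  congr 1
  ext f
  constructor
  · rintro (⟨δ, rfl⟩ | ⟨ℓ, hℓ, rfl⟩)
    · exact ⟨_, ⟨Sum.inl (psiInv hψ δ), rfl⟩, rfl⟩
    · exact ⟨_, ⟨Sum.inr ⟨ℓ, hℓ⟩, rfl⟩, (locT_eq e hℓ).symm⟩
  · rintro ⟨_, ⟨i, rfl⟩, rfl⟩
    rcases i with u | ℓ
    · exact Or.inl ⟨ψ u, locDia_apply hψ e u⟩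
    · exact Or.inr ⟨ℓ.1, ℓ.2, locT_eq e ℓ.2⟩

/-! ### Corestriction to `Γ₀(L)` -/

section Cores

variable [Fintype ((ZMod L)ˣ ⧸ ψ.ker)]

/-- Corestriction between the localised modules. -/
def locCores (ψ : (ZMod L)ˣ →* Δ) [Fintype ((ZMod L)ˣ ⧸ ψ.ker)] (e : OpRing O L S) :
    locMod ψ e →ₗ[O] locModTop e :=
  ((coresLin S ψ.ker O).restrictScalars O).restrict fun x hx => by
    rw [mem_localPart] at hx ⊢
    show e • coresLin S ψ.ker O x = coresLin S ψ.ker O x
    rw [← map_smul, hx]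

omit [IsLocalRing O] in
theorem coe_locCores (e : OpRing O L S) (x : locMod ψ e) :
    (locCores ψ e x : HomMod O S (⊤ : Subgroup (ZMod L)ˣ) O) = coresLin S ψ.ker O x := rfl

omit [IsLocalRing O] in
theorem locCores_localAct (e a : OpRing O L S) (x : locMod ψ e) :
    locCores ψ e (localAct O e (HomMod O S ψ.ker O) a x) =
      localAct O e (HomMod O S (⊤ : Subgroup (ZMod L)ˣ) O) a (locCores ψ e x) :=
  Subtype.ext (map_smul (coresLin S ψ.ker O) a _)

theorem locCores_locT (e : OpRing O L S) {ℓ : ℕ} (h : ℓ.Prime ∧ ℓ ∉ S) (x : locMod ψ e) :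
    locCores ψ e (locT ψ e ℓ x) =
      localAct O e (HomMod O S (⊤ : Subgroup (ZMod L)ˣ) O) (X (Sum.inr ⟨ℓ, h⟩))
        (locCores ψ e x) := by
  rw [locT_eq e h, locCores_localAct]

theorem locCores_locDia (hψ : Function.Surjective ψ) (e : OpRing O L S) (δ : Δ)
    (x : locMod ψ e) : locCores ψ e (locDia hψ e δ x) = locCores ψ e x :=
  (locCores_localAct e _ x).trans <| Subtype.ext <| by
    rw [coe_localAct_apply, X_inl_smul]
    exact diamond_top O _ _

variable (h3 : IsUnit (3 : O)) (htwo : ∀ x : O, x + x = 0 → x = 0)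
  (hfree : SFree (gammaH L (⊤ : Subgroup (ZMod L)ˣ))) (hneg : -1 ∈ ψ.ker) {m : Ideal (OpRing O L S)}
  {e : OpRing O L S}

include h3 htwo hfree hneg

theorem locCores_surjective (he : IsLocalizer m (HomMod O S ψ.ker O) e) :
    Function.Surjective (locCores (O := O) ψ e) := fun y => by
  obtain ⟨x, hx⟩ := coresTop_surjective' (A := O) O h3 htwo hfree hneg
    (toHomMod.symm (y : HomMod O S (⊤ : Subgroup (ZMod L)ˣ) O))
  refine ⟨⟨e • (toHomMod x : HomMod O S ψ.ker O), he.idem _⟩, Subtype.ext ?_⟩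
  rw [coe_locCores, map_smul]
  exact (congrArg (fun z : HomMod O S (⊤ : Subgroup (ZMod L)ˣ) O => e • z) hx).trans y.2

/-- The kernel of corestriction is the augmentation part. -/
theorem locCores_eq_zero_iff [Fintype Δ] (hψ : Function.Surjective ψ)
    (he : IsLocalizer m (HomMod O S ψ.ker O) e) (x : locMod ψ e) :
    locCores ψ e x = 0 ↔
      ∃ y : Δ → locMod ψ e, x = ∑ δ, (locDia hψ e δ (y δ) - y δ) := by
  refine ⟨fun hx => ?_, ?_⟩
  · obtain ⟨E, hE⟩ := exists_deltaEquiv (K := ψ.ker) (fun u => MonoidHom.mem_ker) hψ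
    obtain ⟨y, hy⟩ := exists_eq_sum_diamond' (A := O) O h3 htwo hfree hneg
      (φ := toHomMod.symm (x : HomMod O S ψ.ker O)) (congrArg Subtype.val hx)
    refine ⟨fun δ => ⟨e • (toHomMod (y (E δ)) : HomMod O S ψ.ker O), he.idem _⟩, Subtype.ext ?_⟩
    rw [Submodule.coe_sum]
    refine (show e • (x : HomMod O S ψ.ker O) = x from x.2).symm.trans ?_
    have hy' : (x : HomMod O S ψ.ker O) = ∑ q, ((X (Sum.inl q.out) : OpRing O L S) •
        (toHomMod (y q) : HomMod O S ψ.ker O) - toHomMod (y q)) := by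
      refine hy.trans (Finset.sum_congr rfl fun q _ => ?_)
      rw [X_inl_smul]
      rfl
    rw [hy', Finset.smul_sum, ← E.sum_comp]
    refine Finset.sum_congr rfl fun δ _ => ?_
    rw [Submodule.coe_sub, smul_sub, smul_comm]
    refine congrArg (· - _) ?_
    have h := congrArg Subtype.val (LinearMap.congr_fun (locDia_apply hψ e (E δ).out)
      ⟨e • (toHomMod (y (E δ)) : HomMod O S ψ.ker O), he.idem _⟩)
    rw [hE, coe_localAct_apply] at h
    exact h.symm
  · rintro ⟨y, rfl⟩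
    rw [map_sum]
    exact Finset.sum_eq_zero fun δ _ => by rw [map_sub, locCores_locDia, sub_self]

end Cores

variable {abar : ℕ → ResidueField O}

variable [IsDomain O] [IsDiscreteValuationRing O] [Finite (ResidueField O)] [NeZero L]

/-- The localised module as `HeckeData`. -/
def heckeData (hψ : Function.Surjective ψ) (e : OpRing O L S)
    (he : IsLocalizer (resIdeal S abar L) (HomMod O S ψ.ker O) e) {d : ℕ}
    (b : Fin d → locMod ψ e)
    (hb : Function.Bijective fun c : Fin d × Δ →₀ O =>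
      c.sum fun iδ x => x • locDia hψ e iδ.2 (b iδ.1))
    (hred : ∀ (a : OpRing O L S) (n : ℕ), localAct O e (HomMod O S ψ.ker O) a ^ n = 0 →
      localAct O e (HomMod O S ψ.ker O) a = 0) :
    HeckeData L ψ S abar where
  M := locMod ψ e
  d := d
  basis := b
  T := locT ψ e
  dia := locDia hψ e
  basis_bijective := hb
  T_comm ℓ ℓ' := by
    unfold locT
    split_ifs <;> simp [← map_mul, mul_comm]
  dia_comm ℓ δ := by
    show locT ψ e ℓ * localAct O e _ _ = localAct O e _ _ * locT ψ e ℓ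
    unfold locT
    split_ifs <;> simp [← map_mul, mul_comm]
  residual ℓ hℓ hℓS a ha := by
    have hr : (X (Sum.inr ⟨ℓ, hℓ, hℓS⟩) - C a : OpRing O L S) ∈ resIdeal S abar L := by
      rw [mem_resIdeal, map_sub, opRes_inr, ← algebraMap_eq, AlgHom.commutes,
        ResidueField.algebraMap_eq, ha, sub_self]
    obtain ⟨n, hn⟩ := he.exists_pow_smul_mem (O := O) hr (resIdeal_ne_top S abar)
    obtain ⟨ϖ, hϖ⟩ := IsDiscreteValuationRing.exists_irreducible O
    refine ⟨n, fun x => ?_⟩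
    obtain ⟨y, hy, hxy⟩ := exists_uniformizer_smul hϖ (hn x x.2)
    have hT : locT ψ e ℓ - a • (1 : Module.End O (locMod ψ e)) =
        localAct O e (HomMod O S ψ.ker O) (X (Sum.inr ⟨ℓ, hℓ, hℓS⟩) - C a) := by
      rw [map_sub, ← algebraMap_eq, AlgHom.commutes, Algebra.algebraMap_eq_smul_one,
        locT_eq e ⟨hℓ, hℓS⟩]
    rw [hT, ← map_pow, show localAct O e (HomMod O S ψ.ker O) _ x = ϖ • ⟨y, hy⟩ from
      Subtype.ext hxy.symm]
    exact Submodule.smul_mem_smul ((mem_maximalIdeal ϖ).2 hϖ.not_isUnit) Submodule.mem_top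
  isReduced := ⟨fun z hz => by
    obtain ⟨n, hn⟩ := hz
    obtain ⟨a, ha⟩ : (z : Module.End O (locMod ψ e)) ∈
        (localAct O e (HomMod O S ψ.ker O)).range := by
      rw [← adjoin_loc_eq_range hψ e]
      exact z.2
    refine Subtype.ext (ha.symm.trans (hred a n ?_))
    have h := congrArg Subtype.val hn
    rw [Subalgebra.coe_pow, ← ha] at h
    exact h⟩

/-- The systems of nebentypus `χ` on parabolic homomorphisms come from twisted newforms. -/
def TwistedInput (S : Finset ℕ) (K : Subgroup (ZMod L)ˣ) : Prop :=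
  ∀ (χ : (ZMod L)ˣ →* ℂˣ), (∀ u ∈ K, χ u = 1) → HasEvenComponents χ →
    ∀ (a : ℕ → ℂ) (φ : HomC K), φ ∈ parabolicHoms ℂ (gammaH L K) ℂ → φ ≠ 0 →
      (∀ u, diamond L K ℂ u φ = (χ u : ℂ) • φ) →
      (∀ (ℓ : ℕ) [Fact ℓ.Prime], ℓ ∉ S → hecke L K ℓ ℂ φ = a ℓ • φ) →
      IsTwistedNewform (toDir χ) S a

variable [IsAdicComplete (maximalIdeal O) O] [CharZero O] [CharP (ResidueField O) 2] [Finite Δ]

omit [IsAdicComplete (maximalIdeal O) O] [CharZero O] [Finite Δ] in
/-- Every system of the localised module comes from a twisted newform. -/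
theorem hasNewforms_heckeData (hev : HasEvenComponents ψ) (hTN : TwistedInput S ψ.ker)
    (hψ : Function.Surjective ψ) {e P : OpRing O L S}
    (he : IsLocalizer (resIdeal S abar L) (HomMod O S ψ.ker O) e)
    (hP : P ∉ resIdeal S abar L)
    (hpar : ∀ (A : Type) [AddCommGroup A] [Module O A] [IsAddTorsionFree A]
      (φ : HomMod O S ψ.ker A), IsParabolicHom (gammaH L ψ.ker) (toHomMod.symm (P • φ)))
    {d : ℕ} (b : Fin d → locMod ψ e)
    (hb : Function.Bijective fun c : Fin d × Δ →₀ O =>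
      c.sum fun iδ x => x • locDia hψ e iδ.2 (b iδ.1))
    (hred : ∀ (a : OpRing O L S) (n : ℕ), localAct O e (HomMod O S ψ.ker O) a ^ n = 0 →
      localAct O e (HomMod O S ψ.ker O) a = 0) :
    (heckeData hψ e he b hb hred).HasNewforms := by
  let H := heckeData hψ e he b hb hred
  intro (θ : H.algebra →+* ℂ)
  let σ : O →+* ℂ := θ.comp (algebraMap O H.algebra)
  let := σ.toAlgebra
  have hinj : Function.Injective (algebraMap O ℂ) := injective_toComplex σ
  let toAlg : OpRing O L S →ₐ[O] H.algebra :=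
    (localAct O e (HomMod O S ψ.ker O)).codRestrict H.algebra fun a =>
      (adjoin_loc_eq_range hψ e).ge ⟨a, rfl⟩
  let θ' : OpRing O L S →ₐ[O] ℂ :=
    AlgHom.comp (⟨θ, fun _ => rfl⟩ : H.algebra →ₐ[O] ℂ) toAlg
  have hθ : ∀ a, localAct O e (HomMod O S ψ.ker O) a = 0 → θ' a = 0 := fun a ha => by
    show θ (toAlg a) = 0
    rw [show toAlg a = 0 from Subtype.ext ha, map_zero]
  obtain ⟨φ, hne, hφ, heig⟩ := exists_eigvec hinj he hP (fun φ => hpar ℂ φ) θ' hθ
  let dd : Δ →* H.algebra :=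
    { toFun := fun δ => ⟨H.dia δ, Algebra.subset_adjoin (Or.inl ⟨δ, rfl⟩)⟩
      map_one' := Subtype.ext (map_one H.dia)
      map_mul' := fun δ δ' => Subtype.ext (map_mul H.dia δ δ') }
  let χ : (ZMod L)ˣ →* ℂˣ := (((θ : H.algebra →* ℂ).comp dd).toHomUnits).comp ψ
  have hdd : ∀ u, (dd (ψ u)) = toAlg (X (Sum.inl u)) := fun u =>
    Subtype.ext (locDia_apply hψ e u)
  refine hTN χ (fun u hu => ?_) (fun v hv hvL u hu hu2 => ?_) (H.system θ) φ hφ hne (fun u => ?_)
    fun ℓ hfact hℓS => ?_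
  · show _ = _
    rw [MonoidHom.comp_apply, MonoidHom.mem_ker.1 hu, map_one]
  · rw [MonoidHom.comp_apply, hev v hv hvL u hu hu2, map_one]
  · rw [← opC_inl (O := O) (S := S), heig]
    refine congrArg (· • φ) ?_
    show θ (toAlg (X (Sum.inl u))) = θ (dd (ψ u))
    rw [hdd]
  · rw [← opC_inr (O := O) ⟨ℓ, hfact.out, hℓS⟩, heig]
    refine congrArg (· • φ) ?_
    rw [HeckeData.system, dif_pos ⟨hfact.out, hℓS⟩]
    exact congrArg θ (Subtype.ext (locT_eq e ⟨hfact.out, hℓS⟩).symm)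

/-- **The localised module at `p = 2`.** It is the range of a common localiser `e` of level `ker ψ`
and of level `Γ₀(L)`; its rank over `O[Δ]` is the rank of the latter, nonzero at congruent
levels. Its coinvariants are described by `locCores`. -/
theorem exists_heckeData (hL : Squarefree L) (hfree : SFree (gammaH L (⊤ : Subgroup (ZMod L)ˣ)))
    (hΔ : IsPGroup 2 Δ) (hψ : Function.Surjective ψ) (hev : HasEvenComponents ψ)
    (hS : ∀ v : ℕ, v.Prime → v ∣ L → v ∈ S)
    (hEis : ∃ ℓ : ℕ, ℓ.Prime ∧ ℓ ∉ S ∧ abar ℓ ≠ 1 + (ℓ : ResidueField O))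
    (hss : HeckeSemisimple S ψ.ker) (hTN : TwistedInput S ψ.ker) :
    ∃ (e : OpRing O L S) (he : IsLocalizer (resIdeal S abar L) (HomMod O S ψ.ker O) e)
      (b : Fin (Module.finrank O (locModTop e)) → locMod ψ e)
      (hb : Function.Bijective fun c : Fin (Module.finrank O (locModTop e)) × Δ →₀ O =>
        c.sum fun iδ x => x • locDia hψ e iδ.2 (b iδ.1))
      (hred : ∀ (a : OpRing O L S) (n : ℕ), localAct O e (HomMod O S ψ.ker O) a ^ n = 0 →
        localAct O e (HomMod O S ψ.ker O) a = 0),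
      IsLocalizer (resIdeal S abar L) (HomMod O S (⊤ : Subgroup (ZMod L)ˣ) O) e ∧
      (heckeData hψ e he b hb hred).HasNewforms ∧
      ∀ M : ℕ, M ∣ L → RT.IsCongruentLevel S abar M → 0 < Module.finrank O (locModTop e) := by
  have := Fintype.ofFinite Δ
  have : Fact (Nat.Prime 2) := ⟨Nat.prime_two⟩
  have hneg : -1 ∈ ψ.ker := MonoidHom.mem_ker.2 (map_neg_one hL hev)
  obtain ⟨e, he, he₀, b, hb⟩ := exists_freeData' (p := 2) S abar (ψ := ψ) (K := ψ.ker)
    isUnit_three_of_charTwo eq_zero_of_add_self hfree hneg hΔ hψ (fun u => MonoidHom.mem_ker)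
    hS hEis
  obtain ⟨ℓ, hℓ, hℓS, hℓE⟩ := hEis
  obtain ⟨P, hP, hpar⟩ := exists_parabolicOp S abar (K := ψ.ker) hL hneg hℓ hℓS
    (fun h => hℓS (hS ℓ hℓ h)) hℓE
  have hred : ∀ (a : OpRing O L S) (n : ℕ), localAct O e (HomMod O S ψ.ker O) a ^ n = 0 →
      localAct O e (HomMod O S ψ.ker O) a = 0 := fun a n h => by
    obtain ⟨σ, hσ⟩ := exists_injective_complex O
    let := σ.toAlgebra
    rw [← map_pow] at h
    exact LinearMap.ext fun x => Subtype.ext <| smul_eq_zero_of_pow_smul_of hneg hss hσ he hP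
      (fun φ => hpar ℂ φ) x.2 (congrArg Subtype.val (LinearMap.congr_fun h x))
  refine ⟨e, he, b, hb, hred, he₀, hasNewforms_heckeData hev hTN hψ he hP hpar b hb hred,
    fun M hM hc => ?_⟩
  have hne := ne_bot_of_isCongruentLevel he₀ (isCongruentLevel_of_dvd hM hS hc)
  have : Nontrivial (locModTop e) := Submodule.nontrivial_iff_ne_bot.2 hne
  exact Module.finrank_pos

end Fermat.Agent.TwoAdic.Module.Local
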